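import Mathlib

/-!
# S44 / E-LOCAL, leaf RU : valuations and `p`-th roots of unity (pure Mathlib)
-/

set_option autoImplicit false

namespace Fermat.Agent.S44.ELocal

variable {K : Type*} [Field K] {Γ₀ : Type*} [LinearOrderedCommGroupWithZero Γ₀]
  (v : Valuation K Γ₀) {p : ℕ} (hp : p.Prime) {ζ : K} (hζ : IsPrimitiveRoot ζ p)

/-- `v (1 - x ^ j) ≤ v (1 - x)` when `v x ≤ 1`. -/
theorem Roots_val_one_sub_pow_le {x : K} (hx : v x ≤ 1) (j : ℕ) : v (1 - x ^ j) ≤ v (1 - x) := by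
  have h : 1 - x ^ j = (∑ i ∈ Finset.range j, x ^ i) * (1 - x) := (geom_sum_mul_neg x j).symm
  rw [h, map_mul]
  have h2 : v (∑ i ∈ Finset.range j, x ^ i) ≤ 1 := by
    apply Valuation.map_sum_le
    intro i _
    rw [map_pow]
    exact pow_le_one₀ zero_le hx
  calc v (∑ i ∈ Finset.range j, x ^ i) * v (1 - x) ≤ 1 * v (1 - x) :=
        mul_le_mul_left h2 _
    _ = v (1 - x) := one_mul _

include hp hζ

theorem Roots_val_zeta : v ζ = 1 := by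
  have h : v ζ ^ p = 1 := by rw [← map_pow, hζ.pow_eq_one, map_one]
  exact (pow_eq_one_iff_of_nonneg zero_le hp.ne_zero).1 h

/-- `v ζ = 1` (`ζ^p = 1`); for `p ∤ i`: `(ζ^i - 1)/(ζ - 1) = 1 + ζ + ... + ζ^(i-1)` has `v ≤ 1`, and
symmetrically (`ζ = (ζ^i)^j` with `i j ≡ 1 mod p`). -/
theorem val_zeta_pow_sub_one {i : ℕ} (hi : ¬ p ∣ i) : v (ζ ^ i - 1) = v (ζ - 1) := by
  rw [Valuation.map_sub_swap, Valuation.map_sub_swap v ζ 1]
  have hζ1 : v ζ = 1 := Roots_val_zeta v hp hζ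
  apply le_antisymm (Roots_val_one_sub_pow_le v hζ1.le i)
  have hcop : Nat.Coprime i p := ((Nat.Prime.coprime_iff_not_dvd hp).2 hi).symm
  obtain ⟨m, -, hm⟩ := Nat.exists_mul_mod_eq_one_of_coprime hcop hp.one_lt
  have h1 : (ζ ^ i) ^ m = ζ := by
    rw [← pow_mul, ← Nat.div_add_mod (i * m) p, hm, pow_add, pow_mul, hζ.pow_eq_one, one_pow,
      one_mul, pow_one]
  have h2 : v (ζ ^ i) ≤ 1 := by rw [map_pow, hζ1, one_pow]
  have := Roots_val_one_sub_pow_le v h2 m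
  rwa [h1] at this

/-- `ζ^i - ζ^j = ζ^j (ζ^(i-j) - 1)` (wlog `j ≤ i`). -/
theorem val_zeta_pow_sub_pow {i j : ℕ} (hij : ¬ i ≡ j [MOD p]) :
    v (ζ ^ i - ζ ^ j) = v (ζ - 1) := by
  have hζ1 : v ζ = 1 := Roots_val_zeta v hp hζ
  have key : ∀ a b : ℕ, b ≤ a → ¬ a ≡ b [MOD p] → v (ζ ^ a - ζ ^ b) = v (ζ - 1) := by
    intro a b hba hab
    obtain ⟨c, rfl⟩ := Nat.exists_eq_add_of_le hba
    have h1 : ζ ^ (b + c) - ζ ^ b = ζ ^ b * (ζ ^ c - 1) := by rw [pow_add]; ring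
    rw [h1, map_mul, map_pow, hζ1, one_pow, one_mul]
    apply val_zeta_pow_sub_one v hp hζ
    intro hdvd
    apply hab
    have h2 : c ≡ 0 [MOD p] := (Nat.modEq_zero_iff_dvd).2 hdvd
    simpa using (Nat.ModEq.refl b).add h2
  rcases le_total j i with h | h
  · exact key i j h hij
  · rw [Valuation.map_sub_swap]
    exact key j i h (fun h' => hij h'.symm)

/-- `∏_{i=1}^{p-1} (1 - ζ^i) = p` (evaluate `∏_{i=1}^{p-1}(X - ζ^i) = 1 + X + ... + X^(p-1)` at `1`;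
Mathlib: `IsPrimitiveRoot.pow_sub_one_eq`, `Polynomial.cyclotomic_prime`,
`Polynomial.cyclotomic_eq_prod_X_sub_primitiveRoots`, `Polynomial.eval_one_cyclotomic_prime`, or
`X_pow_sub_one_eq_prod`). -/
theorem val_zeta_sub_one_pow : v (ζ - 1) ^ (p - 1) = v (p : K) := by
  obtain ⟨n, rfl⟩ : ∃ n, p = n + 1 := ⟨p - 1, (Nat.succ_pred_eq_of_pos hp.pos).symm⟩
  have h := hζ.prod_one_sub_pow_eq_order
  have h2 : ((n + 1 : ℕ) : K) = ∏ k ∈ Finset.range n, (1 - ζ ^ (k + 1)) := by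
    rw [h]; push_cast; ring
  rw [h2, map_prod, Nat.add_sub_cancel]
  rw [Finset.prod_congr rfl (g := fun _ => v (ζ - 1))]
  · simp
  · intro k hk
    rw [Valuation.map_sub_swap]
    apply val_zeta_pow_sub_one v hp hζ
    intro hdvd
    have := Nat.le_of_dvd (Nat.succ_pos k) hdvd
    have := Finset.mem_range.1 hk
    omega

/-- `s^p - 1 = ∏_{i<p} (s - ζ^i)` (`X_pow_sub_one_eq_prod` / `IsPrimitiveRoot.pow_sub_pow_eq_prod`).
Take `i₀` minimising `d = v(s - ζ^i)`.  For `i ≠ i₀`: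
`v(ζ-1) = v(ζ^i - ζ^i₀) ≤ max (v(s-ζ^i)) d = v(s - ζ^i)`.  So
`v(s^p-1) ≥ d v(ζ-1)^(p-1) = d v(p)`. -/
theorem exists_close_root (s : K) : ∃ i < p, v (s - ζ ^ i) * v (p : K) ≤ v (s ^ p - 1) := by
  classical
  have : NeZero p := ⟨hp.ne_zero⟩
  have hprod : s ^ p - 1 = ∏ μ ∈ Polynomial.nthRootsFinset p (1 : K), (s - μ) := by
    have := hζ.pow_sub_pow_eq_prod_sub_mul s 1 hp.pos
    simpa using this
  have hne : (Polynomial.nthRootsFinset p (1 : K)).Nonempty := ⟨ζ, hζ.mem_nthRootsFinset hp.pos⟩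
  obtain ⟨μ, hμ, hmin⟩ := Finset.exists_min_image _ (fun μ => v (s - μ)) hne
  obtain ⟨i, hi, rfl⟩ :=
    hζ.eq_pow_of_pow_eq_one ((Polynomial.mem_nthRootsFinset hp.pos (1 : K)).1 hμ)
  refine ⟨i, hi, ?_⟩
  rw [hprod, map_prod, ← Finset.mul_prod_erase _ _ hμ, ← val_zeta_sub_one_pow v hp hζ]
  refine mul_le_mul_right ?_ _
  have hcard : ((Polynomial.nthRootsFinset p (1 : K)).erase (ζ ^ i)).card = p - 1 := by
    rw [Finset.card_erase_of_mem hμ, hζ.card_nthRootsFinset]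
  rw [← hcard, ← Finset.prod_const]
  refine Finset.prod_le_prod (fun _ _ => zero_le) ?_
  intro μ' hμ'
  obtain ⟨hne', hμ'mem⟩ := Finset.mem_erase.1 hμ'
  obtain ⟨j, hj, rfl⟩ :=
    hζ.eq_pow_of_pow_eq_one ((Polynomial.mem_nthRootsFinset hp.pos (1 : K)).1 hμ'mem)
  have hij : ¬ j ≡ i [MOD p] := by
    intro h
    apply hne'
    have : j = i := Nat.ModEq.eq_of_lt_of_lt h hj hi
    rw [this]
  rw [← val_zeta_pow_sub_pow v hp hζ hij]
  have h1 : ζ ^ j - ζ ^ i = (s - ζ ^ i) - (s - ζ ^ j) := by ring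
  rw [h1]
  exact (Valuation.map_sub v _ _).trans (max_le (hmin _ hμ'mem) le_rfl)

/-- if `v p < 1` then `v(ζ - 1) < 1` and `v p ≤ v (ζ - 1)` (and `<` if `p ≠ 2`). -/
theorem val_p_lt_val_zeta_sub_one (hp2 : p ≠ 2) (hvp : v (p : K) < 1) :
    v (p : K) < v (ζ - 1) ∧ v (ζ - 1) < 1 := by
  have h := val_zeta_sub_one_pow v hp hζ
  have h1 : v (ζ - 1) < 1 := by
    by_contra hcon
    have h2 : 1 ≤ v (ζ - 1) ^ (p - 1) := one_le_pow₀ (not_lt.1 hcon)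
    rw [h] at h2
    exact absurd hvp (not_lt.2 h2)
  have h0 : 0 < v (ζ - 1) :=
    zero_lt_iff.2 ((Valuation.ne_zero_iff _).2 (sub_ne_zero.2 (hζ.ne_one hp.one_lt)))
  refine ⟨?_, h1⟩
  rw [← h]
  have := hp.two_le
  exact pow_lt_self_of_lt_one₀ h0 h1 (by omega)

end Fermat.Agent.S44.ELocal
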