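import Fermat.Agent.S44.ELocal.Comp

/-!
# S44 / E-LOCAL, leaf CP-B : `E[p]/E₀[p]` is cyclic, counting
-/

set_option autoImplicit false

namespace Fermat.Agent.S44.ELocal

open Fermat.Agent.S05 Fermat.Agent.S13

variable {G : Type*} [AddCommGroup G] {K : Type*} [Field K]
  {Γ₀ : Type*} [LinearOrderedCommGroupWithZero Γ₀]
  {v : Valuation K Γ₀} {X Y Z : G → K} {m b₂ : K} (h : IsXY2 X Y Z m b₂)
  (h2 : v (2 : K) = 1) (hm1 : v m < 1) (hm0 : m ≠ 0) (hb : v b₂ = 1)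
  {p : ℕ} (hp : p.Prime) (hp2 : p ≠ 2)

include h h2 hm1 hm0 hb hp hp2

/-- `x₁ = X P₁`, `x₂ = X P₂`, `v x₁ = v x₂ = ρ`, `v m < ρ < 1`.  If `x₁ = x₂` then `P₁ = ± P₂`.
Otherwise `(r₁ + r₂)(x₁-x₂)² = 2(x₁+x₂)(m+x₁x₂) + b₂x₁x₂` (`add_add_sub`); the right-hand side has
valuation `ρ²` (the last term dominates: the first has `v ≤ ρ max(v m, ρ²) < ρ²`), and
`v(x₁-x₂)² ≤ ρ²`, so `v(r₁+r₂) ≥ 1`, so `v r₁ ≥ 1` or `v r₂ ≥ 1`. -/
theorem add_or_sub_mem_E0 {P₁ P₂ : G} (h1 : P₁ ≠ 0) (h2' : P₂ ≠ 0)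
    (hv : v (X P₁) = v (X P₂)) (hlt : v (X P₁) < 1) (hgt : v m < v (X P₁)) :
    InE0 v X (P₁ + P₂) ∨ InE0 v X (P₁ - P₂) := by
  by_cases hX : X P₁ = X P₂
  · rcases (h.X_eq_iff h1 h2').1 hX with rfl | rfl
    · right; left; simp
    · left; left; simp
  have hs := h.add_add_sub h1 h2' hX
  suffices hsuff : 1 ≤ v (X (P₁ + P₂)) ∨ 1 ≤ v (X (P₁ - P₂)) from hsuff.imp Or.inr Or.inr
  generalize X (P₁ + P₂) = r₁ at hs ⊢
  generalize X (P₁ - P₂) = r₂ at hs ⊢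
  generalize X P₁ = x₁ at hs hv hlt hgt hX
  generalize X P₂ = x₂ at hs hv hX
  obtain ⟨ρ, hρ⟩ : ∃ ρ, ρ = v x₁ := ⟨_, rfl⟩
  rw [← hρ] at hv hlt hgt
  have hρ0 : 0 < ρ := lt_of_le_of_lt zero_le' hgt
  have hA : v (b₂ * (x₁ * x₂)) = ρ * ρ := by rw [map_mul, map_mul, hb, one_mul, ← hv, ← hρ]
  have hB : v (2 * (x₁ + x₂) * (m + x₁ * x₂)) < ρ * ρ := by
    rw [map_mul, map_mul, h2, one_mul]
    have h3 : v (x₁ + x₂) ≤ ρ := (v.map_add _ _).trans (max_le hρ.ge hv.ge)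
    have h4 : v (m + x₁ * x₂) < ρ := by
      refine lt_of_le_of_lt (v.map_add _ _) (max_lt hgt ?_)
      rw [map_mul, ← hv, ← hρ]
      calc ρ * ρ < ρ * 1 := mul_lt_mul_of_pos_left hlt hρ0
        _ = ρ := mul_one _
    calc v (x₁ + x₂) * v (m + x₁ * x₂) ≤ ρ * v (m + x₁ * x₂) := mul_le_mul_left h3 _
      _ < ρ * ρ := mul_lt_mul_of_pos_left h4 hρ0
  have hR : v (2 * (x₁ + x₂) * (m + x₁ * x₂) + b₂ * (x₁ * x₂)) = ρ * ρ := by
    rw [← hA]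
    exact Valuation.map_add_eq_of_lt_right v (by rw [hA]; exact hB)
  have hD : v ((x₁ - x₂) ^ 2) ≤ ρ * ρ := by
    rw [map_pow, pow_two]
    have h3 : v (x₁ - x₂) ≤ ρ := (v.map_sub _ _).trans (max_le hρ.ge hv.ge)
    exact mul_le_mul' h3 h3
  have hS : 1 ≤ v (r₁ + r₂) := by
    by_contra hcon
    push Not at hcon
    have h5 := congrArg v hs
    rw [map_mul, hR] at h5
    have h6 : v (r₁ + r₂) * v ((x₁ - x₂) ^ 2) < ρ * ρ :=
      calc v (r₁ + r₂) * v ((x₁ - x₂) ^ 2) ≤ v (r₁ + r₂) * (ρ * ρ) := mul_le_mul_right hD _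
        _ < 1 * (ρ * ρ) := mul_lt_mul_of_pos_right hcon (mul_pos hρ0 hρ0)
        _ = ρ * ρ := one_mul _
    exact h6.ne h5
  exact le_max_iff.1 (hS.trans (v.map_add _ _))

/-- If `Q ∈ E₀` take `k = 0`.  Otherwise `comp_index` for `Q`, `exists_mul_comp` for `P` and the
same `n`, so `v(X(k • P)) = v(X Q)`; `add_or_sub_mem_E0`; in the `+` case replace `k` by `p - k`
(`(p - k) • P = -(k • P)`). -/
theorem exists_sub_mem_E0 {P : G} (hP : P ≠ 0) (hpP : p • P = 0) (hXP : v (X P) < 1)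
    {Q : G} (hpQ : p • Q = 0) : ∃ k : ℕ, k < p ∧ InE0 v X (Q - k • P) := by
  by_cases hQE : InE0 v X Q
  · exact ⟨0, hp.pos, by rwa [zero_smul, sub_zero]⟩
  have hQ0 : Q ≠ 0 := fun h0 => hQE (Or.inl h0)
  have hXQ : v (X Q) < 1 := by
    by_contra hcon
    push Not at hcon
    exact hQE (Or.inr hcon)
  obtain ⟨n, hn, hn2, hnQ⟩ := comp_index h h2 hm1 hm0 hb hp hp2 hQ0 hpQ hXQ
  obtain ⟨k, hk0, hkp, hkP⟩ := exists_mul_comp h h2 hm1 hm0 hb hp hp2 hP hpP hXP hn hn2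
  have hvm : v m ≠ 0 := (Valuation.ne_zero_iff v).mpr hm0
  have hkP0 : k • P ≠ 0 := by
    intro h0
    rw [h0, h.X_zero, map_zero, zero_pow hp.ne_zero] at hkP
    exact pow_ne_zero _ hvm hkP.symm
  have hveq : v (X Q) = v (X (k • P)) :=
    (pow_left_inj₀ zero_le' zero_le' hp.ne_zero).1 (hnQ.trans hkP.symm)
  have hgt := node_gt h hm1 hm0 hb hp hp2 hQ0 hpQ hXQ
  rcases add_or_sub_mem_E0 h h2 hm1 hm0 hb hp hp2 hQ0 hkP0 hveq hXQ hgt with h3 | h3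
  · refine ⟨p - k, by omega, ?_⟩
    have h4 : (p - k) • P = -(k • P) := by
      rw [eq_neg_iff_add_eq_zero, ← add_nsmul, Nat.sub_add_cancel hkp.le, hpP]
    rwa [h4, sub_neg_eq_add]
  · exact ⟨k, hkp, h3⟩

/-- COUNTING.  If all of `G[p]` is in `E₀` then `#G[p] = #E₀[p] ≤ p < p²`.  So there is
`P ∈ G[p]`, `P ∉ E₀`; by `exists_sub_mem_E0` the map `(k, T) ↦ k • P + T`,
`Fin p × E₀[p] → G[p]` is onto, so `p² ≤ p #E₀[p]`. -/
theorem card_InL_eq (hcard : Nat.card {P : G // p • P = 0} = p ^ 2)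
    (hle : Nat.card {T : G // InL v X p T} ≤ p) :
    Nat.card {T : G // InL v X p T} = p ∧ ∃ P : G, P ≠ 0 ∧ p • P = 0 ∧ v (X P) < 1 := by
  have hp1 := hp.one_lt
  have hex : ∃ P : G, P ≠ 0 ∧ p • P = 0 ∧ v (X P) < 1 := by
    by_contra hcon
    push Not at hcon
    have hiff : ∀ T : G, p • T = 0 ↔ InL v X p T := by
      intro T
      refine ⟨fun hT => ⟨hT, ?_⟩, fun hT => hT.1⟩
      by_cases hT0 : T = 0
      · exact Or.inl hT0
      · exact Or.inr (hcon T hT0 hT)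
    have h3 := Nat.card_congr (Equiv.subtypeEquivRight hiff)
    rw [hcard] at h3
    rw [← h3] at hle
    nlinarith
  refine ⟨?_, hex⟩
  obtain ⟨P, hP, hpP, hXP⟩ := hex
  haveI hfin : Finite {P : G // p • P = 0} :=
    Nat.finite_of_card_ne_zero (by rw [hcard]; positivity)
  haveI hfin2 : Finite {T : G // InL v X p T} :=
    Finite.of_injective (fun T : {T : G // InL v X p T} => (⟨T.1, T.2.1⟩ : {P : G // p • P = 0}))
      (fun a b hab => Subtype.ext (congrArg (fun z : {P : G // p • P = 0} => z.1) hab))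
  have hsurj : Function.Surjective (fun z : Fin p × {T : G // InL v X p T} =>
      (⟨(z.1 : ℕ) • P + z.2.1, by
        rw [smul_add, smul_comm, hpP, smul_zero, zero_add, z.2.2.1]⟩ : {P : G // p • P = 0})) := by
    rintro ⟨Q, hQ⟩
    obtain ⟨k, hk, hkE⟩ := exists_sub_mem_E0 h h2 hm1 hm0 hb hp hp2 hP hpP hXP hQ
    refine ⟨(⟨k, hk⟩, ⟨Q - k • P, ?_, hkE⟩), ?_⟩
    · rw [smul_sub, hQ, smul_comm, hpP, smul_zero, sub_zero]
    · apply Subtype.ext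
      show k • P + (Q - k • P) = Q
      abel
  have h4 := Nat.card_le_card_of_surjective _ hsurj
  rw [hcard, Nat.card_prod, Nat.card_eq_fintype_card, Fintype.card_fin] at h4
  have h5 : p ≤ Nat.card {T : G // InL v X p T} := by nlinarith
  omega

end Fermat.Agent.S44.ELocal
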