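import Fermat.Agent.S44.ELocal.Index2
import Fermat.Agent.S44.ELocal.Comp2

/-!
# S44 / E-LOCAL, leaf AB-A : the abstract local theorem (structure of `E₀[p]`)
-/

set_option autoImplicit false

namespace Fermat.Agent.S44.ELocal

open Fermat.Agent.S05 Fermat.Agent.S13

variable {G : Type*} [AddCommGroup G] {K : Type*} [Field K]
  {Γ₀ : Type*} [LinearOrderedCommGroupWithZero Γ₀]
  {v : Valuation K Γ₀} {X Y Z : G → K} {m b₂ γ : K}
  {H : Type*} [Group H] [MulSemiringAction H K] [DistribMulAction H G]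

/-- the action of the inertia group. -/
structure IsInertia (v : Valuation K Γ₀) (X Y : G → K) (γ : K) (H : Type*) [Group H]
    [MulSemiringAction H K] [DistribMulAction H G] : Prop where
  X_smul : ∀ (g : H) (P : G), X (g • P) = g • X P
  Y_smul : ∀ (g : H) (P : G), Y (g • P) = g • Y P
  val : ∀ (g : H) (x : K), v (g • x) = v x
  cong : ∀ (g : H) (x : K), v x ≤ 1 → v (g • x - x) < 1
  fixγ : ∀ g : H, g • γ = γ

variable (C : Ctx v X Y Z m b₂ γ) (J : IsInertia v X Y γ H)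
  {p : ℕ} (hp : p.Prime) (hp5 : 5 ≤ p) (hvp : v (p : K) < 1)
  (hmp : v m < v (p : K) ^ 2) {ζ : K} (hζ : IsPrimitiveRoot ζ p)

include C J hp hp5

/-- LEAF AB-A.  `σG := DistribMulAction.toAddMonoidHom G g`, `σK := MulSemiringAction.toRingHom H K g`.
If `v (X P) < 1`: `S13.sigma_sub_mem_E0`.  Otherwise `P ∈ E₀` and `S13.sigma_sub_mem_E1`
(with `S13.nc_mult` as in the proof of `S13.sq_mem_E1`), `InE1.inE0`. -/
theorem smul_sub_mem_InL (g : H) {P : G} (hpP : p • P = 0) : InL v X p (g • P - P) := by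
  have hp2 : p ≠ 2 := by omega
  have hσ0 : ∀ P : G, P ≠ 0 → DistribSMul.toAddMonoidHom G g P ≠ 0 := by
    intro P hP h0
    exact hP ((smul_eq_zero_iff_eq g).1 h0)
  have hσX : ∀ P, X (DistribSMul.toAddMonoidHom G g P) = MulSemiringAction.toRingHom H K g (X P) :=
    fun P => J.X_smul g P
  have hσY : ∀ P, Y (DistribSMul.toAddMonoidHom G g P) = MulSemiringAction.toRingHom H K g (Y P) :=
    fun P => J.Y_smul g P
  have hσI : ∀ x, v x ≤ 1 → v (MulSemiringAction.toRingHom H K g x - x) < 1 := fun x hx => J.cong g x hx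
  have hσv : ∀ x, v (MulSemiringAction.toRingHom H K g x) = v x := fun x => J.val g x
  refine ⟨by rw [smul_sub, smul_comm, hpP, smul_zero, sub_zero], ?_⟩
  by_cases hP : P = 0
  · left; rw [hP]; simp
  rcases lt_or_ge (v (X P)) 1 with hx | hx
  · exact sigma_sub_mem_E0 C.xy C.h2 hσ0 hσX hσY hσI hσv C.hm1 C.hm0 C.hb hp hp2 hP hpP hx
  · refine InE1.inE0 (sigma_sub_mem_E1 C.xy C.h2 hσ0 hσX hσY hσI hσv C.hm1.le C.hb.le ?_)
    intro hx' hy
    exact nc_mult C.h2 C.hm1 C.hb (le_antisymm hx' hx) (C.xy.Y_sq P) hy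

include hvp hmp hζ

/-- LEAF AB-A.  `sigma_eq_nsmul`. -/
theorem smul_eq_nsmul (g : H) {c : ℕ} (hg : g • ζ = ζ ^ c) {T : G} (hT : InL v X p T) :
    g • T = c • T := by
  have hp2 : p ≠ 2 := by omega
  exact sigma_eq_nsmul C hp hp2 hvp hmp hζ (σG := DistribSMul.toAddMonoidHom G g)
    (σK := MulSemiringAction.toRingHom H K g)
    (fun P hP h0 => hP ((smul_eq_zero_iff_eq g).1 h0)) (fun P => J.X_smul g P)
    (fun P => J.Y_smul g P) (fun x => J.val g x) (J.fixγ g) hg hT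

/-- LEAF AB-A.  `card_InL_le`, `card_InL_eq`. -/
theorem card_InL (hcard : Nat.card {P : G // p • P = 0} = p ^ 2) :
    Nat.card {T : G // InL v X p T} = p := by
  have hp2 : p ≠ 2 := by omega
  exact (card_InL_eq C.xy C.h2 C.hm1 C.hm0 C.hb hp hp2 hcard
    (card_InL_le C hp hp2 hvp hmp hζ)).1

end Fermat.Agent.S44.ELocal
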