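import Fermat.Agent.S44.ELocal.Defs

/-!
# S44 / E-LOCAL, leaf CP-A : the components, pigeonhole (x-only)
-/

set_option autoImplicit false

namespace Fermat.Agent.S44.ELocal

open Fermat.Agent.S05 Fermat.Agent.S13

variable {G : Type*} [AddCommGroup G] {K : Type*} [Field K]
  {Γ₀ : Type*} [LinearOrderedCommGroupWithZero Γ₀]
  {v : Valuation K Γ₀} {X Y Z : G → K} {m b₂ : K} (h : IsXY2 X Y Z m b₂)
  (h2 : v (2 : K) = 1) (hm1 : v m < 1) (hm0 : m ≠ 0) (hb : v b₂ = 1)
  {p : ℕ} (hp : p.Prime) (hp2 : p ≠ 2)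

include h h2 hm1 hm0 hb hp hp2

/-- `S13.claimB` gives `v(X Q)^p = v(m)^(2n)`, `n : ℤ`; `S13.node_gt` gives `v m < v (X Q) < 1`, so
`v(m)^p < v(m)^(2n) < 1`, i.e. `0 < 2n < p` (`zpow` strictly anti-monotone for `0 < v m < 1`). -/
theorem comp_index {Q : G} (hQ : Q ≠ 0) (hpQ : p • Q = 0) (hXQ : v (X Q) < 1) :
    ∃ n : ℕ, 0 < n ∧ 2 * n < p ∧ v (X Q) ^ p = v m ^ (2 * n) := by
  obtain ⟨n, hn⟩ := S13.claimB h hm1 hm0 hb hp hp2 hQ hpQ hXQ
  have hgt := S13.node_gt h hm1 hm0 hb hp hp2 hQ hpQ hXQ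
  have hν0 : 0 < v m := zero_lt_iff.mpr ((Valuation.ne_zero_iff v).mpr hm0)
  have hp0 : p ≠ 0 := hp.ne_zero
  have h1 : v m ^ p < v (X Q) ^ p := pow_lt_pow_left₀ hgt zero_le hp0
  have h3 : v (X Q) ^ p < 1 := pow_lt_one₀ zero_le hXQ hp0
  rw [hn] at h1 h3
  have h4 : 2 * n < (p : ℤ) := by
    rw [← zpow_natCast] at h1
    exact (zpow_lt_zpow_iff_right_of_lt_one₀ hν0 hm1).1 h1
  have h5 : 0 < 2 * n := by
    rw [← zpow_zero (v m)] at h3
    exact (zpow_lt_zpow_iff_right_of_lt_one₀ hν0 hm1).1 h3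
  refine ⟨n.toNat, by omega, by omega, ?_⟩
  rw [hn, ← zpow_natCast]
  congr 1
  push_cast
  rw [Int.toNat_of_nonneg (by omega)]

/-- PIGEONHOLE.  For `k = 1, ..., (p-1)/2` the points `k • P` are nonzero, not in `E₀`
(`S13.node_mul`), with pairwise distinct `X` (`X_eq_iff`: `k • P = ± k' • P` is impossible) hence
pairwise distinct `v(X(k • P))` (`S13.inj_of_mem`), hence pairwise distinct indices `n_k`
(`comp_index`; `a^p = b^p → a = b` in a linearly ordered group: `pow_left_inj₀`).  The `n_k` lie in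
`{1, ..., (p-1)/2}`, so every `n` in this range occurs (`Finset.surj_on_of_inj_on_of_card_le` or
`Fintype.bijective_iff_injective_and_card`). -/
theorem exists_mul_comp {P : G} (hP : P ≠ 0) (hpP : p • P = 0) (hXP : v (X P) < 1)
    {n : ℕ} (hn : 0 < n) (hn2 : 2 * n < p) :
    ∃ k : ℕ, 0 < k ∧ k < p ∧ v (X (k • P)) ^ p = v m ^ (2 * n) := by
  obtain ⟨r, hr⟩ := hp.odd_of_ne_two hp2
  have hν0 : 0 < v m := zero_lt_iff.mpr ((Valuation.ne_zero_iff v).mpr hm0)
  have hmem : ∀ j : ℕ, j • P ∈ AddSubgroup.zmultiples P :=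
    fun j => AddSubgroup.nsmul_mem_zmultiples P j
  have hne : ∀ j : ℕ, 0 < j → j < p → j • P ≠ 0 :=
    fun j h0 h1 => nsmul_ne_zero_of_lt hp hP hpP h0 h1
  have hidx : ∀ k : Fin r, ∃ n : ℕ, 0 < n ∧ 2 * n < p ∧
      v (X ((k.1 + 1) • P)) ^ p = v m ^ (2 * n) := by
    intro k
    have hk := k.2
    have h0 : (k.1 + 1) • P ≠ 0 := hne _ (by omega) (by omega)
    exact comp_index h h2 hm1 hm0 hb hp hp2 h0 (by rw [smul_comm, hpP, smul_zero])
      (S13.node_mul h hm1 hm0 hb hp hp2 hP hpP hXP h0)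
  choose f hf0 hf1 hf2 using hidx
  let g : Fin r → Fin r := fun k => ⟨f k - 1, by have := hf0 k; have := hf1 k; omega⟩
  have hginj : Function.Injective g := by
    intro k k' hkk
    have hff : f k = f k' := by
      have h1 := congrArg Fin.val hkk
      have := hf0 k
      have := hf0 k'
      simp only [g] at h1
      omega
    have hk := k.2
    have hk' := k'.2
    have h0 : (k.1 + 1) • P ≠ 0 := hne _ (by omega) (by omega)
    have h0' : (k'.1 + 1) • P ≠ 0 := hne _ (by omega) (by omega)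
    have hpow : v (X ((k.1 + 1) • P)) ^ p = v (X ((k'.1 + 1) • P)) ^ p := by
      rw [hf2, hf2, hff]
    have hval : v (X ((k.1 + 1) • P)) = v (X ((k'.1 + 1) • P)) :=
      (pow_left_inj₀ zero_le zero_le hp.ne_zero).1 hpow
    have hX : X ((k.1 + 1) • P) = X ((k'.1 + 1) • P) := by
      by_contra hX
      exact S13.inj_of_mem h hm1 hm0 hb hp hp2 hP hpP hXP (hmem _) (hmem _) h0 h0' hX hval
    apply Fin.ext
    by_contra hkne
    rcases (h.X_eq_iff h0 h0').1 hX with e | e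
    · rcases lt_or_gt_of_ne hkne with hlt | hlt
      · apply hne (k'.1 - k.1) (by omega) (by omega)
        have : (k'.1 + 1) • P = (k'.1 - k.1) • P + (k.1 + 1) • P := by
          rw [← add_nsmul]; congr 1; omega
        rw [this] at e
        exact (right_eq_add.mp e)
      · apply hne (k.1 - k'.1) (by omega) (by omega)
        have : (k.1 + 1) • P = (k.1 - k'.1) • P + (k'.1 + 1) • P := by
          rw [← add_nsmul]; congr 1; omega
        rw [this] at e
        exact (add_eq_right.mp e)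
    · apply hne (k.1 + 1 + (k'.1 + 1)) (by omega) (by omega)
      rw [add_nsmul, e, neg_add_cancel]
  have hgsurj : Function.Surjective g := Finite.injective_iff_surjective.1 hginj
  obtain ⟨k, hk⟩ := hgsurj ⟨n - 1, by omega⟩
  have hkn : f k = n := by
    have h1 := congrArg Fin.val hk
    have := hf0 k
    simp only [g] at h1
    omega
  have := k.2
  exact ⟨k.1 + 1, by omega, by omega, by rw [hf2, hkn]⟩

end Fermat.Agent.S44.ELocal
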