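import Fermat.Agent.S44.Defs
import Fermat.Agent.S13.AtP

/-!
# S44 / E-LOCAL, leaf CC-A : two facts on the inertia group
-/

set_option autoImplicit false

namespace Fermat.Agent.S44.ELocal

open Fermat.Agent.S05 Fermat.Agent.S13 Fermat.Agent.S44

/-- LEAF CC-A.  `(σ γ)² = σ(γ²) = γ²` (rational), so `σ γ = ± γ`; `σ γ = -γ` is impossible:
`v(σ γ - γ) < 1` (`S05.inertia_congr`) but `v(-2γ) = 1`. -/
theorem inertia_fix_sqrt (A : ValuationSubring Qb) {σ : GQ} (hσ : σ ∈ A.inertiaSubgroupIn ℚ)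
    (h2 : A.valuation (2 : Qb) = 1) {γ : Qb} {r : ℚ} (hγ : γ ^ 2 = algebraMap ℚ Qb r)
    (hr : A.valuation (algebraMap ℚ Qb r) = 1) : σ γ = γ := by
  have hsq : (σ γ) ^ 2 = γ ^ 2 := by
    rw [← map_pow, hγ, AlgEquiv.commutes]
  have hv : A.valuation γ = 1 := by
    refine (pow_left_inj₀ zero_le zero_le two_ne_zero).1 ?_
    rw [one_pow, ← map_pow, hγ, hr]
  rcases sq_eq_sq_iff_eq_or_eq_neg.1 hsq with h | h
  · exact h
  · exfalso
    have h1 := inertia_congr A hσ hv.le
    have h3 : σ γ - γ = -(2 * γ) := by rw [h]; ring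
    rw [h3, Valuation.map_neg, map_mul, h2, hv, one_mul] at h1
    exact lt_irrefl _ h1

theorem Inertia_mem_iff (A : ValuationSubring Qb) {σ : GQ} (hσ : σ ∈ A.inertiaSubgroupIn ℚ)
    (x : Qb) : σ x ∈ A ↔ x ∈ A := by
  have key : ∀ {τ : GQ}, τ ∈ A.inertiaSubgroupIn ℚ → ∀ y, y ∈ A → τ y ∈ A := by
    intro τ hτ y hy
    have h1 := inertia_congr A hτ ((A.valuation_le_one_iff y).2 hy)
    have h2 : τ y - y ∈ A := (A.valuation_le_one_iff _).1 h1.le
    have h3 := A.add_mem _ _ h2 hy
    rwa [sub_add_cancel] at h3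
  constructor
  · intro h
    have h1 := key (inv_mem hσ) _ h
    rwa [show σ⁻¹ (σ x) = x from σ.symm_apply_apply x] at h1
  · exact key hσ x

theorem Inertia_le_iff (A : ValuationSubring Qb) {σ : GQ} (hσ : σ ∈ A.inertiaSubgroupIn ℚ)
    (a b : Qb) : A.valuation (σ a) ≤ A.valuation (σ b) ↔ A.valuation a ≤ A.valuation b := by
  by_cases hb : b = 0
  · subst hb
    simp
  · have hσb : σ b ≠ 0 := by simpa using hb
    have h1 : A.valuation (σ a) ≤ A.valuation (σ b) ↔ σ (a / b) ∈ A := by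
      rw [← ValuationSubring.valuation_le_one_iff, map_div₀, map_div₀,
        div_le_one₀ (zero_lt_iff.mpr ((Valuation.ne_zero_iff _).mpr hσb))]
    have h2 : A.valuation a ≤ A.valuation b ↔ a / b ∈ A := by
      rw [← ValuationSubring.valuation_le_one_iff, map_div₀,
        div_le_one₀ (zero_lt_iff.mpr ((Valuation.ne_zero_iff _).mpr hb))]
    rw [h1, h2]
    exact Inertia_mem_iff A hσ _

theorem Inertia_exists_pow_fix (σ : GQ) (x : Qb) : ∃ n : ℕ, 0 < n ∧ (σ ^ n) x = x := by
  classical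
  have : Algebra.IsAlgebraic ℚ Qb := AlgebraicClosure.isAlgebraic ℚ
  have hfin : ((minpoly ℚ x).rootSet Qb).Finite := Polynomial.rootSet_finite _ _
  have hmem : ∀ n : ℕ, (σ ^ n) x ∈ (minpoly ℚ x).rootSet Qb := by
    intro n
    rw [Polynomial.mem_rootSet]
    refine ⟨minpoly.ne_zero (Algebra.IsAlgebraic.isAlgebraic x).isIntegral, ?_⟩
    have h := Polynomial.aeval_algHom_apply ((σ ^ n : GQ) : Qb →ₐ[ℚ] Qb) x (minpoly ℚ x)
    rw [minpoly.aeval, map_zero] at h
    exact h
  have : Finite ((minpoly ℚ x).rootSet Qb) := hfin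
  obtain ⟨a, b, hab, h⟩ := Finite.exists_ne_map_eq_of_infinite
    (fun n : ℕ => (⟨(σ ^ n) x, hmem n⟩ : (minpoly ℚ x).rootSet Qb))
  have h' : (σ ^ a) x = (σ ^ b) x := congrArg Subtype.val h
  wlog hlt : a < b generalizing a b
  · exact this b a hab.symm h.symm h'.symm (by omega)
  refine ⟨b - a, by omega, ?_⟩
  have h2 : σ ^ b = σ ^ a * σ ^ (b - a) := by rw [← pow_add]; congr 1; omega
  rw [h2, AlgEquiv.mul_apply] at h'
  exact ((σ ^ a).injective h').symm

/-- LEAF CC-A.  an element of the inertia (even decomposition) group preserves the valuation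
(see how `hσv` is produced in `S13/AtP.lean`, `frey_at_p_aux`). -/
theorem inertia_val (A : ValuationSubring Qb) {σ : GQ} (hσ : σ ∈ A.inertiaSubgroupIn ℚ) (x : Qb) :
    A.valuation (σ x) = A.valuation x := by
  obtain ⟨n, hn, hx⟩ := Inertia_exists_pow_fix σ x
  have hlt : ∀ a b : Qb, A.valuation (σ a) < A.valuation (σ b) ↔
      A.valuation a < A.valuation b := by
    intro a b
    rw [← not_le, ← not_le, Inertia_le_iff A hσ]
  have hstep : ∀ k : ℕ, (σ ^ (k + 1)) x = σ ((σ ^ k) x) := by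
    intro k
    rw [pow_succ', AlgEquiv.mul_apply]
  rcases lt_trichotomy (A.valuation (σ x)) (A.valuation x) with h | h | h
  · exfalso
    have h1 : ∀ k : ℕ, A.valuation ((σ ^ (k + 1)) x) < A.valuation x := by
      intro k
      induction k with
      | zero => simpa using h
      | succ k ih =>
        rw [hstep]
        exact lt_trans ((hlt _ _).mpr ih) h
    have h2 := h1 (n - 1)
    rw [show n - 1 + 1 = n by omega, hx] at h2
    exact lt_irrefl _ h2
  · exact h
  · exfalso
    have h1 : ∀ k : ℕ, A.valuation x < A.valuation ((σ ^ (k + 1)) x) := by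
      intro k
      induction k with
      | zero => simpa using h
      | succ k ih =>
        rw [hstep]
        exact lt_trans h ((hlt _ _).mpr ih)
    have h2 := h1 (n - 1)
    rw [show n - 1 + 1 = n by omega, hx] at h2
    exact lt_irrefl _ h2

end Fermat.Agent.S44.ELocal
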