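import Fermat.Agent.S44.ELocal.Defs
import Fermat.Agent.S13.LocalInst

/-!
# S44 / E-LOCAL, leaf LN : Mathlib's group law satisfies the chord-tangent axiom `IsLine`
-/

set_option autoImplicit false

namespace Fermat.Agent.S44.ELocal

open Fermat.Agent.S05 Fermat.Agent.S13
open WeierstrassCurve WeierstrassCurve.Affine WeierstrassCurve.Affine.Point

variable {F : Type*} [Field F] [DecidableEq F] {W : Affine F}

/-- `P = (x₁,y₁)`, `Q = (x₂,y₂)`, `P + Q ≠ 0`, so `¬(x₁ = x₂ ∧ y₁ = negY x₂ y₂)` and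
`P + Q = (addX x₁ x₂ L, addY x₁ x₂ y₁ L)`, `L = W.slope x₁ x₂ y₁ y₂` (`Point.add_some` /
`add_of_imp`).  Put `μ = 2L + a₁`, `ν = Yc P - μ (x₁ - e)`.
* `Yc P = μ X P + ν` by definition; `Yc Q = μ X Q + ν`: `y₂ - y₁ = L (x₂ - x₁)` (if `x₁ ≠ x₂` by
  `slope_of_X_ne`; if `x₁ = x₂` then `y₁ = y₂` by `Y_eq_of_Y_ne`);
* `-Yc (P+Q)`: `addY = negY (addX) (negAddY)`, `negAddY = L (addX - x₁) + y₁`;
* the three symmetric function identities: compare coefficients in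
  `W.addPolynomial x₁ y₁ L = -((X - C x₁)(X - C x₂)(X - C (addX x₁ x₂ L)))`
  (`addPolynomial_slope`), or directly: `addX = L² + a₁L - a₂ - x₁ - x₂` gives `e₁`; for `e₂, e₃` use
  the two curve equations and the definition of the slope (`field_simp`, `linear_combination`;
  the case `x₁ = x₂` uses `slope_of_Y_ne` : `L (y₁ - negY x₁ y₁) = 3x₁²+2a₂x₁+a₄-a₁y₁`).
`hb2, hb4, hb6` translate `b₂, b₄, b₆` into `e, α, β` exactly as in `S13.isXY2_of`. -/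
theorem isLine_of [CharZero F] {e α β : F}
    (hb2 : W.b₂ = -4 * (3 * e + α + β))
    (hb4 : W.b₄ = 2 * (3 * e ^ 2 + 2 * e * (α + β) + α * β))
    (hb6 : W.b₆ = -4 * e * (e + α) * (e + β)) :
    IsLine (Xc e : W.Point → F) Yc (α * β) (-4 * (α + β)) := by
  refine ⟨fun {P Q} hP hQ hPQ => ?_⟩
  rcases P with _ | ⟨x₁, y₁, h₁⟩
  · exact absurd rfl hP
  rcases Q with _ | ⟨x₂, y₂, h₂⟩
  · exact absurd rfl hQ
  have hxy : ¬(x₁ = x₂ ∧ y₁ = W.negY x₂ y₂) := by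
    rintro ⟨hx, hy⟩
    exact hPQ (Point.add_of_Y_eq hx hy)
  rw [Point.add_some hxy]
  simp only [Xc_some, Yc_some]
  have hpoly := addPolynomial_slope h₁.1 h₂.1 hxy
  have hline : y₂ - y₁ = W.slope x₁ x₂ y₁ y₂ * (x₂ - x₁) := by
    by_cases hx : x₁ = x₂
    · have hy : y₁ ≠ W.negY x₂ y₂ := fun h => hxy ⟨hx, h⟩
      rw [Y_eq_of_Y_ne h₁.1 h₂.1 hx hy, hx]
      ring
    · rw [slope_of_X_ne hx]
      have hx' : x₁ - x₂ ≠ 0 := sub_ne_zero.2 hx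
      field_simp
      ring
  obtain ⟨L, hL⟩ : ∃ L, L = W.slope x₁ x₂ y₁ y₂ := ⟨_, rfl⟩
  rw [← hL] at hpoly hline ⊢
  rw [addPolynomial_eq, neg_inj, Cubic.prod_X_sub_C_eq, Cubic.toPoly_injective] at hpoly
  have hb := congrArg Cubic.b hpoly
  have hc := congrArg Cubic.c hpoly
  have hd := congrArg Cubic.d hpoly
  simp only at hb hc hd
  simp only [b₂, b₄, b₆] at hb2 hb4 hb6
  obtain ⟨x₃, hx₃⟩ : ∃ x₃, x₃ = W.addX x₁ x₂ L := ⟨_, rfl⟩
  have hy₃ : W.addY x₁ x₂ y₁ L = -(L * (x₃ - x₁) + y₁) - W.a₁ * x₃ - W.a₃ := by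
    rw [addY, negAddY, negY, ← hx₃]
  rw [hy₃]
  rw [← hx₃] at hb hc hd ⊢
  refine ⟨2 * L + W.a₁, (2 * y₁ + W.a₁ * x₁ + W.a₃) - (2 * L + W.a₁) * (x₁ - e), by ring,
    by linear_combination 2 * hline, by ring, ?_, ?_, ?_⟩
  · linear_combination 4 * hb - hb2
  · linear_combination -4 * hc - 8 * e * hb + 2 * hb4 + 2 * e * hb2
  · linear_combination 4 * hd + 4 * e * hc + 4 * e ^ 2 * hb - (e ^ 2 * hb2 + 2 * e * hb4 + hb6)

end Fermat.Agent.S44.ELocal
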