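import Fermat.Agent.S44.ELocal.Defs

/-!
# S44 / E-LOCAL, leaf ES : translation by a point of the kernel of reduction moves `X` by an
exactly known amount (x-only)
-/

set_option autoImplicit false

namespace Fermat.Agent.S44.ELocal

open Fermat.Agent.S05 Fermat.Agent.S13

variable {G : Type*} [AddCommGroup G] {K : Type*} [Field K]
  {Γ₀ : Type*} [LinearOrderedCommGroupWithZero Γ₀]
  {v : Valuation K Γ₀} {X Y Z : G → K} {m b₂ : K} (h : IsXY2 X Y Z m b₂)
  (h2 : v (2 : K) = 1) (hm1 : v m < 1) (hb : v b₂ = 1)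

include h h2 hm1 hb

/-- `ρ = v(X P) < 1`, `t = v(X T) > 1`, `v m < ρ t`.  `r₁ = X(P+T)`, `r₂ = X(P-T)`.
`add_mul_sub`: `r₁r₂(x-x_T)² = (x x_T - m)²`, `v(x - x_T) = t`, `v(x x_T - m) = ρt`: `v r₁ v r₂ = ρ²`.
`add_add_sub`: `(r₁+r₂)(x-x_T)² = 2(x+x_T)(m+x x_T) + b₂ x x_T`, first term of valuation `ρt²`,
second `ρt < ρt²`: `v(r₁+r₂) = ρ`.  If `v r₁ ≠ v r₂` the larger one is `ρ`, then so is the other:
contradiction; so `v r₁ = v r₂`, `= ρ` (`pow_left_inj₀`). -/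
theorem val_X_add_E1 {P T : G} (hP : P ≠ 0) (hT : T ≠ 0) (hx : v (X P) < 1) (ht : 1 < v (X T))
    (hm : v m < v (X P) * v (X T)) : v (X (P + T)) = v (X P) := by
  have hρt0 : 0 < v (X P) * v (X T) := lt_of_le_of_lt zero_le hm
  have hρ0 : v (X P) ≠ 0 := left_ne_zero_of_mul hρt0.ne'
  have ht0 : v (X T) ≠ 0 := right_ne_zero_of_mul hρt0.ne'
  have hlt : v (X P) < v (X T) := hx.trans ht
  have hne : X P ≠ X T := fun e => by
    rw [e] at hlt
    exact lt_irrefl _ hlt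
  have hA := h.add_mul_sub hP hT hne
  have hB := h.add_add_sub hP hT hne
  have v1 : v (X P - X T) = v (X T) := Valuation.map_sub_eq_of_lt_right _ hlt
  have v2 : v (X P + X T) = v (X T) := Valuation.map_add_eq_of_lt_right _ hlt
  have v3 : v (X P * X T - m) = v (X P) * v (X T) := by
    rw [Valuation.map_sub_eq_of_lt_left _ (by rw [map_mul]; exact hm), map_mul]
  have v4 : v (m + X P * X T) = v (X P) * v (X T) := by
    rw [Valuation.map_add_eq_of_lt_right _ (by rw [map_mul]; exact hm), map_mul]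
  have hA' := congrArg v hA
  rw [map_mul, map_mul, map_pow, map_pow, v1, v3, mul_pow] at hA'
  have hA'' : v (X (P + T)) * v (X (P - T)) = v (X P) ^ 2 :=
    mul_right_cancel₀ (pow_ne_zero 2 ht0) hA'
  have v5 : v (2 * (X P + X T) * (m + X P * X T)) = v (X P) * v (X T) ^ 2 := by
    rw [map_mul, map_mul, h2, v2, v4, one_mul, sq, mul_left_comm]
  have v6 : v (b₂ * (X P * X T)) = v (X P) * v (X T) := by
    rw [map_mul, hb, one_mul, map_mul]
  have hlt2 : v (X P) * v (X T) < v (X P) * v (X T) ^ 2 := by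
    rw [sq, ← mul_assoc]
    exact lt_mul_of_one_lt_right hρt0 ht
  have v7 : v (2 * (X P + X T) * (m + X P * X T) + b₂ * (X P * X T)) =
      v (X P) * v (X T) ^ 2 := by
    rw [Valuation.map_add_eq_of_lt_left _ (by rw [v5, v6]; exact hlt2), v5]
  have hB' := congrArg v hB
  rw [map_mul, map_pow, v1, v7] at hB'
  have hB'' : v (X (P + T) + X (P - T)) = v (X P) := mul_right_cancel₀ (pow_ne_zero 2 ht0) hB'
  rcases lt_trichotomy (v (X (P + T))) (v (X (P - T))) with hlt3 | heq | hgt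
  · rw [Valuation.map_add_eq_of_lt_right _ hlt3] at hB''
    rw [hB'', sq] at hA''
    exact mul_right_cancel₀ hρ0 hA''
  · rw [← heq, ← sq] at hA''
    exact (pow_left_inj₀ zero_le zero_le two_ne_zero).mp hA''
  · rw [Valuation.map_add_eq_of_lt_left _ hgt] at hB''
    exact hB''

/-- `dbl`: `X(2P) Y² = (x²-m)²`, `v(Y²) = v(4x³+b₂x²+4mx) = ρ²` (since `v m < ρ² < ρ`),
`v(x²-m) = ρ²`.  `P + P ≠ 0`: otherwise `P = -P`, `Y P = -Y P`, `Y P = 0`, but `v(Y P)² = ρ² ≠ 0`. -/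
theorem val_X_dbl {P : G} (hP : P ≠ 0) (hx : v (X P) < 1) (hm : v m < v (X P) ^ 2) :
    P + P ≠ 0 ∧ v (X (P + P)) = v (X P) ^ 2 := by
  have hρ2 : 0 < v (X P) ^ 2 := lt_of_le_of_lt zero_le hm
  have hρ0 : v (X P) ≠ 0 := fun e => by
    rw [e, zero_pow two_ne_zero] at hρ2
    exact lt_irrefl _ hρ2
  have hρpos : 0 < v (X P) := zero_lt_iff.mpr hρ0
  have h4 : v (4 : K) = 1 := by
    have e4 : (4 : K) = 2 * 2 := by norm_num
    rw [e4, map_mul, h2, one_mul]
  have hρ3 : v (X P) ^ 3 < v (X P) ^ 2 := by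
    rw [pow_succ (v (X P)) 2]
    exact mul_lt_of_lt_one_right hρ2 hx
  have w1 : v (4 * X P ^ 3) = v (X P) ^ 3 := by rw [map_mul, h4, one_mul, map_pow]
  have w2 : v (b₂ * X P ^ 2) = v (X P) ^ 2 := by rw [map_mul, hb, one_mul, map_pow]
  have w3 : v (4 * m * X P) < v (X P) ^ 2 := by
    rw [map_mul, map_mul, h4, one_mul]
    calc v m * v (X P) < v (X P) ^ 2 * v (X P) := mul_lt_mul_of_pos_right hm hρpos
      _ = v (X P) ^ 3 := (pow_succ _ 2).symm
      _ < v (X P) ^ 2 := hρ3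
  have w4 : v (4 * X P ^ 3 + b₂ * X P ^ 2) = v (X P) ^ 2 := by
    rw [Valuation.map_add_eq_of_lt_right _ (by rw [w1, w2]; exact hρ3), w2]
  have hY : v (Y P ^ 2) = v (X P) ^ 2 := by
    rw [h.Y_sq, Valuation.map_add_eq_of_lt_left _ (by rw [w4]; exact w3), w4]
  have h20 : (2 : K) ≠ 0 := fun e => by
    rw [e, map_zero] at h2
    exact zero_ne_one h2
  have hPP : P + P ≠ 0 := by
    intro e
    have e1 : P = -P := eq_neg_of_add_eq_zero_left e
    have e2 := h.Y_neg P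
    rw [← e1] at e2
    have e3 : (2 : K) * Y P = 0 := by linear_combination e2
    have e4 : Y P = 0 := (mul_eq_zero.mp e3).resolve_left h20
    rw [e4, zero_pow two_ne_zero, map_zero] at hY
    exact hρ2.ne hY
  refine ⟨hPP, ?_⟩
  have hd := congrArg v (h.dbl hP hPP)
  rw [map_mul, hY, map_pow, Valuation.map_sub_eq_of_lt_left _ (by rw [map_pow]; exact hm),
    map_pow, sq (v (X P) ^ 2)] at hd
  exact mul_right_cancel₀ hρ2.ne' hd

/-- MAIN.  `Q₁ = P + T`, `Q₂ = P`: `Q₁ - Q₂ = T`, `Q₁ + Q₂ = (P+P) + T`.  `v(X Q₁) = ρ`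
(`val_X_add_E1`), `v(X(Q₁+Q₂)) = ρ²` (`val_X_dbl`, `val_X_add_E1` for `P + P`),
`X Q₁ ≠ X Q₂` (else `Q₁ = ± Q₂`: `T = 0` or `(P+P)+T = 0`, impossible: `v(X((P+P)+T)) = ρ² ≠ 0`).
`add_mul_sub`: `X(Q₁+Q₂) X(T) (X Q₁ - X Q₂)² = (X Q₁ X Q₂ - m)²`, the right side has valuation
`ρ⁴`. -/
theorem es_val {P T : G} (hP : P ≠ 0) (hT : T ≠ 0) (hx : v (X P) < 1) (ht : 1 < v (X T))
    (hm : v m < v (X P) ^ 2) :
    v (X (P + T) - X P) ^ 2 * v (X T) = v (X P) ^ 2 := by
  have hρ2 : 0 < v (X P) ^ 2 := lt_of_le_of_lt zero_le hm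
  have hρ0 : v (X P) ≠ 0 := fun e => by
    rw [e, zero_pow two_ne_zero] at hρ2
    exact lt_irrefl _ hρ2
  have hρpos : 0 < v (X P) := zero_lt_iff.mpr hρ0
  have hm1' : v m < v (X P) * v (X T) := by
    calc v m < v (X P) ^ 2 := hm
      _ = v (X P) * v (X P) := sq _
      _ < v (X P) * v (X T) := mul_lt_mul_of_pos_left (hx.trans ht) hρpos
  have e1 : v (X (P + T)) = v (X P) := val_X_add_E1 h h2 hm1 hb hP hT hx ht hm1'
  obtain ⟨hPP, e2⟩ := val_X_dbl h h2 hm1 hb hP hx hm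
  have hx2 : v (X (P + P)) < 1 := by
    rw [e2]
    exact pow_lt_one₀ zero_le hx two_ne_zero
  have hm2 : v m < v (X (P + P)) * v (X T) := by
    rw [e2]
    exact hm.trans (lt_mul_of_one_lt_right hρ2 ht)
  have e3 : v (X (P + P + T)) = v (X P) ^ 2 := by
    rw [val_X_add_E1 h h2 hm1 hb hPP hT hx2 ht hm2, e2]
  have hQ1 : P + T ≠ 0 := by
    intro e
    rw [e, h.X_zero, map_zero] at e1
    exact hρ0 e1.symm
  have hne : X (P + T) ≠ X P := by
    intro e
    rcases (h.X_eq_iff hQ1 hP).mp e with e' | e'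
    · exact hT (add_eq_left.mp e')
    · have e4 : P + P + T = 0 := by rw [add_right_comm, e', neg_add_cancel]
      rw [e4, h.X_zero, map_zero] at e3
      exact hρ2.ne e3
  have hA := congrArg v (h.add_mul_sub hQ1 hP hne)
  have s1 : P + T + P = P + P + T := add_right_comm P T P
  have s2 : P + T - P = T := add_sub_cancel_left P T
  have e5 : v (X (P + T) * X P - m) = v (X P) ^ 2 := by
    rw [Valuation.map_sub_eq_of_lt_left _ (by rw [map_mul, e1, ← sq]; exact hm), map_mul, e1, ← sq]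
  rw [s1, s2, map_mul, map_mul, e3, map_pow, map_pow, e5, sq (v (X P) ^ 2), mul_assoc] at hA
  rw [mul_comm]
  exact mul_left_cancel₀ hρ2.ne' hA

end Fermat.Agent.S44.ELocal
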