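import Mathlib

/-!
# S44 / E-LOCAL, leaf TR : in a "très ramifiée" Kummer extension elements move little
(pure Mathlib: Lagrange resolvents + ultrametric inequality)
-/

set_option autoImplicit false

namespace Fermat.Agent.S44.ELocal

variable {K : Type*} [Field K] {Γ₀ : Type*} [LinearOrderedCommGroupWithZero Γ₀]

/-- elements with pairwise distinct valuations: the valuation of the sum is the maximum.  Only the
following consequence is needed. -/
theorem val_sum_le_of_forall_le {ι : Type*} (v : Valuation K Γ₀) (s : Finset ι) (f : ι → K)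
    {g : Γ₀} (hf : ∀ i ∈ s, v (f i) ≤ g) : v (∑ i ∈ s, f i) ≤ g :=
  v.map_sum_le hf

/-- the sum over a period of a periodic function is shift invariant. -/
theorem tr_sum_range_shift {M : Type*} [AddCommGroup M] (f : ℕ → M) (p : ℕ)
    (hf : ∀ j, f (j + p) = f j) (c : ℕ) :
    ∑ j ∈ Finset.range p, f (j + c) = ∑ j ∈ Finset.range p, f j := by
  induction c with
  | zero => simp
  | succ c ih =>
    rw [← ih]
    have h1 := Finset.sum_range_succ (fun j => f (j + c)) p
    have h2 := Finset.sum_range_succ' (fun j => f (j + c)) p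
    rw [h1] at h2
    simp only [zero_add] at h2
    rw [add_comm p c, hf c] at h2
    have h3 := add_right_cancel h2
    rw [h3]
    refine Finset.sum_congr rfl fun j _ => ?_
    congr 1
    omega

/-- Lagrange resolvents of a `p`-periodic sequence. -/
noncomputable def trResolvent (p : ℕ) (ζ : K) (y : ℕ → K) (i : ℕ) : K :=
  (p : K)⁻¹ * ∑ j ∈ Finset.range p, (ζ⁻¹) ^ (i * j) * y j

theorem sum_trResolvent {p : ℕ} (hp : p.Prime) (hpK : (p : K) ≠ 0) {ζ : K}
    (hζ : IsPrimitiveRoot ζ p) (y : ℕ → K) :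
    ∑ i ∈ Finset.range p, trResolvent p ζ y i = y 0 := by
  unfold trResolvent
  rw [← Finset.mul_sum, Finset.sum_comm]
  have key : ∀ j ∈ Finset.range p, ∑ i ∈ Finset.range p, (ζ⁻¹) ^ (i * j) * y j
      = if j = 0 then (p : K) * y 0 else 0 := by
    intro j hj
    rw [← Finset.sum_mul]
    split_ifs with h0
    · subst h0
      simp
    · have hη : (ζ⁻¹ ^ j) ≠ 1 := by
        rw [inv_pow]
        intro h
        rw [inv_eq_one] at h
        exact hζ.pow_ne_one_of_pos_of_lt h0 (Finset.mem_range.mp hj) h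
      have h0' : ∑ i ∈ Finset.range p, (ζ⁻¹) ^ (i * j) = 0 := by
        have h1 : ∑ i ∈ Finset.range p, (ζ⁻¹) ^ (i * j)
            = ∑ i ∈ Finset.range p, (ζ⁻¹ ^ j) ^ i := by
          refine Finset.sum_congr rfl fun i _ => ?_
          rw [← pow_mul, mul_comm]
        rw [h1]
        have h2 := geom_sum_mul (ζ⁻¹ ^ j) p
        have h3 : (ζ⁻¹ ^ j) ^ p = 1 := by
          rw [← pow_mul, mul_comm, pow_mul, inv_pow, hζ.pow_eq_one, inv_one, one_pow]
        rw [h3, sub_self] at h2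
        exact (mul_eq_zero.mp h2).resolve_right (sub_ne_zero.mpr hη)
      rw [h0', zero_mul]
  rw [Finset.sum_congr rfl key, Finset.sum_ite_eq' (Finset.range p) 0 (fun _ => (p : K) * y 0),
    if_pos (Finset.mem_range.mpr hp.pos), inv_mul_cancel_left₀ hpK]

theorem trResolvent_shift {p : ℕ} {ζ : K} (hζ0 : ζ ≠ 0) (hζp : ζ ^ p = 1) (y : ℕ → K)
    (hy : ∀ j, y (j + p) = y j) (i c : ℕ) :
    trResolvent p ζ (fun j => y (j + c)) i = ζ ^ (i * c) * trResolvent p ζ y i := by
  unfold trResolvent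
  rw [mul_left_comm]
  congr 1
  rw [Finset.mul_sum, ← tr_sum_range_shift (fun j => ζ ^ (i * c) * ((ζ⁻¹) ^ (i * j) * y j)) p ?_ c]
  · refine Finset.sum_congr rfl fun j _ => ?_
    rw [mul_add, pow_add, inv_pow, inv_pow]
    have h1 : ζ ^ (i * c) ≠ 0 := pow_ne_zero _ hζ0
    have h2 : ζ ^ (i * j) ≠ 0 := pow_ne_zero _ hζ0
    field_simp
  · intro j
    have h3 : (ζ⁻¹) ^ (i * (j + p)) = (ζ⁻¹) ^ (i * j) := by
      have h4 : (ζ⁻¹) ^ (i * p) = 1 := by
        rw [mul_comm i p, pow_mul, inv_pow, hζp, inv_one, one_pow]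
      rw [mul_add, pow_add, h4, mul_one]
    rw [hy, h3]

/-- **TR**.  `H` a group of valuation preserving automorphisms of `K` fixing `ζ`;
`α ≠ 0` with `g α ∈ μ_p α` for all `g`, `g₀ α = ζ α`; `v(α^p)` is not the `p`-th power of the
valuation of an `H`-fixed element; `x` is fixed by the stabiliser of `α`, and `v x` is the
valuation of an `H`-fixed element.  Then `v(g₀ x - x) < v(ζ - 1) v(x)`.

Proof.  `g₀^p` fixes `α`, hence `x`.  Resolvents `e_i := p⁻¹ ∑_{j<p} ζ^(-ij) g₀^j x` (`i < p`):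
`∑_i e_i = x` (orthogonality: `∑_i ζ^(-ij) = 0` for `0 < j < p`,
`IsPrimitiveRoot.geom_sum_eq_zero`), `g₀ e_i = ζ^i e_i`.  For `g ∈ H` with `g α = ζ^c α`:
`g₀^(-c) g` fixes `α`; more generally `g g₀^j x = g₀^(j+c) x` (`g₀^(-(j+c)) g g₀^j` fixes `α`), so
`g e_i = ζ^(ic) e_i`, so `b_i := e_i / α^i` is `H`-fixed.  If `e_i ≠ 0`, `e_j ≠ 0`, `i ≠ j` then
`v e_i ≠ v e_j`: otherwise `v(α)^(i-j) = v(b_j/b_i)`; with `u (i-j) + w p = 1`:
`v α = v((b_j/b_i)^u (α^p)^w)`, where the element on the right is `H`-fixed (`α^p` is `H`-fixed), so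
`v(α^p) = v(b)^p`: contradiction.  In the same way `v x = v b` with `b` fixed and `v x = max v e_i`
(pairwise distinct valuations: `Valuation.map_sum_eq_of_lt` or induction with
`Valuation.map_add_eq_of_lt_left`): the maximum is attained at `i = 0` only [if it were attained at
`i ≠ 0`, `v(α)^i = v(b/b_i)`, same contradiction].  So `v e_i < v x` for `0 < i < p`, and
`g₀ x - x = ∑_{0<i<p} (ζ^i - 1) e_i`, `v(ζ^i - 1) ≤ v(ζ - 1)` (`ζ - 1 ∣ ζ^i - 1`, `v ζ = 1`). -/
theorem tr_lemma {H : Type*} [Group H] [MulSemiringAction H K] (v : Valuation K Γ₀)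
    (hv : ∀ (g : H) (x : K), v (g • x) = v x)
    {p : ℕ} (hp : p.Prime) (hpK : (p : K) ≠ 0) {ζ α x : K} (hζ : IsPrimitiveRoot ζ p)
    (hζH : ∀ g : H, g • ζ = ζ) (hα : α ≠ 0)
    (hαH : ∀ g : H, ∃ c : ℕ, g • α = ζ ^ c * α)
    (g₀ : H) (hg₀ : g₀ • α = ζ * α)
    (hx : ∀ g : H, g • α = α → g • x = x)
    (hnd : ¬ ∃ b : K, (∀ g : H, g • b = b) ∧ v (α ^ p) = v b ^ p)
    (hxv : ∃ b : K, (∀ g : H, g • b = b) ∧ v x = v b) (hx0 : x ≠ 0) :
    v (g₀ • x - x) < v (ζ - 1) * v x := by
  classical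
  have hp1 : 1 < p := hp.one_lt
  have hζ0 : ζ ≠ 0 := hζ.ne_zero hp.ne_zero
  have hζp : ζ ^ p = 1 := hζ.pow_eq_one
  have hvα : v α ≠ 0 := (Valuation.ne_zero_iff v).mpr hα
  -- action of the powers of `g₀` on `α`
  have hg₀pow : ∀ j : ℕ, (g₀ ^ j) • α = ζ ^ j * α := by
    intro j
    induction j with
    | zero => simp
    | succ j ih =>
      rw [pow_succ', mul_smul, ih, smul_mul', smul_pow', hζH, hg₀]
      ring
  set y : ℕ → K := fun j => (g₀ ^ j) • x with hy
  have hshift : ∀ (g : H) (c : ℕ), g • α = ζ ^ c * α → ∀ j, g • y j = y (j + c) := by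
    intro g c hgc j
    have hfix : ((g₀ ^ (j + c))⁻¹ * g * g₀ ^ j) • α = α := by
      rw [mul_smul, mul_smul, hg₀pow, smul_mul', smul_pow', hζH, hgc, inv_smul_eq_iff, hg₀pow]
      ring
    have h1 := hx _ hfix
    rw [mul_smul, mul_smul, inv_smul_eq_iff] at h1
    exact h1
  have hper : ∀ j, y (j + p) = y j := by
    intro j
    have h1 : (g₀ ^ p) • x = x := hx _ (by rw [hg₀pow, hζp, one_mul])
    show (g₀ ^ (j + p)) • x = (g₀ ^ j) • x
    rw [pow_add, mul_smul, h1]
  set e : ℕ → K := trResolvent p ζ y with he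
  have hsum : ∑ i ∈ Finset.range p, e i = x := by
    rw [he, sum_trResolvent hp hpK hζ]
    simp [hy]
  have hge : ∀ (g : H) (c : ℕ), g • α = ζ ^ c * α → ∀ i, g • e i = ζ ^ (i * c) * e i := by
    intro g c hgc i
    rw [he, ← trResolvent_shift hζ0 hζp y hper i c]
    unfold trResolvent
    have hσ : ∀ z : K, g • z = MulSemiringAction.toRingHom H K g z := fun _ => rfl
    rw [hσ, map_mul, map_inv₀, map_natCast, map_sum]
    congr 1
    refine Finset.sum_congr rfl fun j _ => ?_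
    rw [map_mul, map_pow, map_inv₀, ← hσ, ← hσ, hζH, hshift g c hgc]
  -- fixed elements
  have hαp : ∀ g : H, g • (α ^ p) = α ^ p := by
    intro g
    obtain ⟨c, hc⟩ := hαH g
    rw [smul_pow', hc, mul_pow, ← pow_mul, mul_comm c p, pow_mul, hζp, one_pow, one_mul]
  have hC : ∀ i, 0 < i → i < p → ∀ b : K, (∀ g : H, g • b = b) → v α ^ i ≠ v b := by
    intro i hi0 hip b hb hval
    have hcop : Nat.Coprime i p := (Nat.coprime_of_lt_prime hi0.ne' hip hp).symm
    obtain ⟨m, -, hm⟩ := Nat.exists_mul_mod_eq_one_of_coprime hcop hp1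
    have hdm : i * m = p * (i * m / p) + 1 := by
      have := Nat.div_add_mod (i * m) p
      omega
    set w := i * m / p with hw
    apply hnd
    refine ⟨b ^ m / (α ^ p) ^ w, ?_, ?_⟩
    · intro g
      rw [smul_div₀', smul_pow', hb g, smul_pow', hαp g]
    · have h1 : v α = v (b ^ m / (α ^ p) ^ w) := by
        rw [map_div₀, map_pow, map_pow, map_pow, ← hval, ← pow_mul, ← pow_mul, hdm, pow_succ,
          mul_div_cancel_left₀ _ (pow_ne_zero _ hvα)]
      exact (map_pow v α p).trans (congrArg (· ^ p) h1)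
  have hlt : ∀ (i j : ℕ) (b b' : K), i < j → j < p → (∀ g : H, g • b = b) →
      (∀ g : H, g • b' = b') → b' ≠ 0 → v b * v α ^ i = v b' * v α ^ j → False := by
    intro i j b b' hij hjp hb hb' hb'0 heq
    have hvb' : v b' ≠ 0 := (Valuation.ne_zero_iff v).mpr hb'0
    refine hC (j - i) (by omega) (by omega) (b / b') ?_ ?_
    · intro g
      rw [smul_div₀', hb g, hb' g]
    · have hj : j = (j - i) + i := by omega
      rw [hj, pow_add, ← mul_assoc] at heq
      have h1 := mul_right_cancel₀ (pow_ne_zero i hvα) heq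
      rw [map_div₀, h1, mul_div_cancel_left₀ _ hvb']
  have hinj : ∀ (i j : ℕ) (b b' : K), i < p → j < p → (∀ g : H, g • b = b) →
      (∀ g : H, g • b' = b') → b ≠ 0 → b' ≠ 0 → v b * v α ^ i = v b' * v α ^ j → i = j := by
    intro i j b b' hip hjp hb hb' hb0 hb'0 heq
    rcases lt_trichotomy i j with h | h | h
    · exact (hlt i j b b' h hjp hb hb' hb'0 heq).elim
    · exact h
    · exact (hlt j i b' b h hip hb' hb hb0 heq.symm).elim
  have hbfix : ∀ (i : ℕ) (g : H), g • (e i / α ^ i) = e i / α ^ i := by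
    intro i g
    obtain ⟨c, hc⟩ := hαH g
    rw [smul_div₀', hge g c hc, smul_pow', hc, mul_pow, ← pow_mul, mul_comm c i,
      mul_div_mul_left _ _ (pow_ne_zero _ hζ0)]
  have hve : ∀ i, v (e i) = v (e i / α ^ i) * v α ^ i := by
    intro i
    rw [← map_pow, ← map_mul, div_mul_cancel₀ _ (pow_ne_zero _ hα)]
  have hb0 : ∀ i, e i ≠ 0 → e i / α ^ i ≠ 0 := fun i hi => div_ne_zero hi (pow_ne_zero _ hα)
  -- the maximal resolvent
  obtain ⟨m, hm, hmax⟩ := Finset.exists_max_image (Finset.range p) (fun i => v (e i))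
    ⟨0, Finset.mem_range.mpr hp.pos⟩
  have hem : e m ≠ 0 := by
    intro h
    apply hx0
    rw [← hsum]
    refine Finset.sum_eq_zero fun i hi => ?_
    have h1 := hmax i hi
    simp only [h, map_zero] at h1
    exact (Valuation.zero_iff v).mp (le_antisymm h1 zero_le)
  have hlt' : ∀ i ∈ Finset.range p, i ≠ m → v (e i) < v (e m) := by
    intro i hi him
    refine lt_of_le_of_ne (hmax i hi) fun heq => ?_
    by_cases hei : e i = 0
    · rw [hei, map_zero] at heq
      exact hem ((Valuation.zero_iff v).mp heq.symm)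
    · apply him
      refine hinj i m _ _ (Finset.mem_range.mp hi) (Finset.mem_range.mp hm) (hbfix i) (hbfix m)
        (hb0 i hei) (hb0 m hem) ?_
      rw [← hve, ← hve, heq]
  have hvx : v x = v (e m) := by
    rw [← hsum]
    refine Valuation.map_sum_eq_of_lt v hm fun i hi => ?_
    rw [Finset.mem_sdiff, Finset.mem_singleton] at hi
    exact hlt' i hi.1 hi.2
  have hm0 : m = 0 := by
    obtain ⟨b, hb, hvb⟩ := hxv
    have hbne : b ≠ 0 := by
      intro h
      rw [h, map_zero] at hvb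
      exact hx0 ((Valuation.zero_iff v).mp hvb)
    refine hinj m 0 _ b (Finset.mem_range.mp hm) hp.pos (hbfix m) hb (hb0 m hem) hbne ?_
    rw [← hve, pow_zero, mul_one, ← hvb, hvx]
  subst hm0
  -- conclusion
  have hvζ : v ζ ≤ 1 := by
    by_contra h
    have h1 : 1 < v ζ := not_le.mp h
    have h2 := one_lt_pow₀ h1 hp.ne_zero
    rw [← map_pow, hζp, map_one] at h2
    exact lt_irrefl _ h2
  have hζ1 : ζ - 1 ≠ 0 := sub_ne_zero.mpr (hζ.ne_one hp1)
  have hvζ1 : v (ζ - 1) ≠ 0 := (Valuation.ne_zero_iff v).mpr hζ1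
  have hvx0 : v x ≠ 0 := (Valuation.ne_zero_iff v).mpr hx0
  have hdiff : g₀ • x - x = ∑ i ∈ Finset.range p, (ζ ^ i - 1) * e i := by
    have h1 : g₀ • x = ∑ i ∈ Finset.range p, ζ ^ i * e i := by
      conv_lhs => rw [← hsum]
      rw [Finset.smul_sum]
      refine Finset.sum_congr rfl fun i _ => ?_
      rw [hge g₀ 1 (by rw [pow_one, hg₀]) i, mul_one]
    rw [h1]
    conv_lhs => rw [← hsum]
    rw [← Finset.sum_sub_distrib]
    refine Finset.sum_congr rfl fun i _ => ?_
    ring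
  rw [hdiff]
  refine Valuation.map_sum_lt v (mul_ne_zero hvζ1 hvx0) fun i hi => ?_
  by_cases hi0 : i = 0
  · subst hi0
    rw [pow_zero, sub_self, zero_mul, map_zero]
    exact zero_lt_iff.mpr (mul_ne_zero hvζ1 hvx0)
  · have h1 : v (ζ ^ i - 1) ≤ v (ζ - 1) := by
      rw [← geom_sum_mul ζ i, map_mul]
      refine mul_le_of_le_one_left' ?_
      refine Valuation.map_sum_le v fun k _ => ?_
      rw [map_pow]
      exact pow_le_one' hvζ k
    rw [map_mul]
    calc v (ζ ^ i - 1) * v (e i) ≤ v (ζ - 1) * v (e i) := mul_le_mul_left h1 _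
      _ < v (ζ - 1) * v x := by
        rw [hvx]
        exact mul_lt_mul_of_pos_left (hlt' i hi hi0) (zero_lt_iff.mpr hvζ1)

end Fermat.Agent.S44.ELocal
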