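import Fermat.Agent.S44.ELocal.Abstract
import Fermat.Agent.S44.ELocal.ES
import Fermat.Agent.S44.ELocal.TR

/-!
# S44 / E-LOCAL, leaf AB-B : peu ramifiée (abstract)
-/

set_option autoImplicit false

namespace Fermat.Agent.S44.ELocal

open Fermat.Agent.S05 Fermat.Agent.S13

variable {G : Type*} [AddCommGroup G] {K : Type*} [Field K]
  {Γ₀ : Type*} [LinearOrderedCommGroupWithZero Γ₀]
  {v : Valuation K Γ₀} {X Y Z : G → K} {m b₂ γ : K}
  {H : Type*} [Group H] [MulSemiringAction H K] [DistribMulAction H G]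

theorem Peu_exists_mul {p c : ℕ} (hp : p.Prime) (hc : ¬ p ∣ c) : ∃ u w : ℕ, u * c = 1 + w * p := by
  have hcop : Nat.Coprime c p := ((Nat.Prime.coprime_iff_not_dvd hp).2 hc).symm
  obtain ⟨u, -, hu⟩ := Nat.exists_mul_mod_eq_one_of_coprime hcop hp.one_lt
  refine ⟨u, c * u / p, ?_⟩
  have := Nat.div_add_mod (c * u) p
  rw [hu] at this
  rw [mul_comm u c, mul_comm _ p, add_comm]
  exact this.symm

theorem Peu_smul_eq {p : ℕ} (hp0 : p ≠ 0) {ζ : K} (hζ : IsPrimitiveRoot ζ p) {t : G} (hpt : p • t = 0)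
    {a b : ℕ} (h : ζ ^ a = ζ ^ b) : a • t = b • t := by
  wlog hab : a ≤ b generalizing a b
  · exact (this h.symm (le_of_not_ge hab)).symm
  obtain ⟨d, rfl⟩ := Nat.exists_eq_add_of_le hab
  have hζ0 : ζ ≠ 0 := hζ.ne_zero hp0
  have h1 : ζ ^ d = 1 := by
    rw [pow_add] at h
    exact mul_left_cancel₀ (pow_ne_zero a hζ0) (by rw [← h, mul_one])
  obtain ⟨w, rfl⟩ := (hζ.pow_eq_one_iff_dvd d).1 h1
  rw [add_smul, mul_comm p w, mul_smul, hpt, smul_zero, add_zero]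

theorem Peu_pow_smul {ζ α : K} {g : H} {c : ℕ} (hgζ : g • ζ = ζ) (hg : g • α = ζ ^ c * α) (n : ℕ) :
    g ^ n • α = ζ ^ (c * n) * α := by
  induction n with
  | zero => simp
  | succ n ih =>
    rw [pow_succ', mul_smul, ih, smul_mul', smul_pow', hgζ, hg]
    ring

variable (C : Ctx v X Y Z m b₂ γ) (J : IsInertia v X Y γ H)
  {p : ℕ} (hp : p.Prime) (hp5 : 5 ≤ p) (hvp : v (p : K) < 1)
  (hmp : v m < v (p : K) ^ 2) {ζ : K} (hζ : IsPrimitiveRoot ζ p)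

include C J hp hp5 hvp hmp hζ

/-- LEAF AB-B (~250 lines): PEU RAMIFIÉE.  Suppose such `α, x, t` exist;
`H₁ := MulAction.stabilizer H ζ`.
1. Some `g₁ ∈ H₁` has `g₁ α = ζ^c₁ α`, `p ∤ c₁` (otherwise `b = α`).  A power `g₀'` has `g₀' α = ζ α`.
2. `g₁ x - x = c₁ t ≠ 0` lies in `E₀[p]` (`smul_sub_mem_InL`), so `t ∈ E₀[p]` (a multiple).
3. `x ∉ E₀` (else `g₁ x = x` by `smul_eq_nsmul` with `c = 1`).  So `x ≠ 0`, `v (X x) < 1`.
4. `exists_mul_comp` with `n = 1`: `P' = k • x`, `0 < k < p`, `v(X P')^p = v(m)²`; hence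
   `v m < v(X P')²` (`(v(X P')²)^p = v(m)⁴ > v(m)^p`, `p ≥ 5`), `v (X P') < 1`, and
   `v (X P') = v (a₀²)` (`pow_left_inj₀`).
5. `α' = α^k`, `g₀ = g₀'^k'`, `k k' ≡ 1 (p)`: `g₀ α' = ζ α'`; `g₀ P' - P' = t`.
   If `g α' = α'` then `g α = ζ^c α` with `p ∣ c k`, so `p ∣ c`, `g x = x`, `g (X P') = X P'`.
   `v(α'^p) = v(b)^p` would give `v(α^p) = v(b^u (α^p)^w)^p`, `u k + w p = 1`.
6. `tr_lemma` (for `H₁`): `v(g₀ X(P') - X(P')) < v(ζ-1) v(X P')`.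
7. `es_val` with `T = t` (`InL.inE1`: `1 < v (X t)`) and `depth`:
   `v(X(P'+t) - X P')² = v(X P')² v(ζ-1)²`.  Contradiction. -/
theorem not_tresRam_abs (ha : ∃ a₀ : K, (∀ g : H, g • a₀ = a₀) ∧ v m = v a₀ ^ p) :
    ¬ ∃ (α : K) (x t : G), α ≠ 0 ∧ t ≠ 0 ∧ p • t = 0 ∧ p • x = 0 ∧
      (¬ ∃ b : K, (∀ g : H, g • ζ = ζ → g • b = b) ∧ v (α ^ p) = v b ^ p) ∧
      ∀ g : H, g • ζ = ζ → ∃ c : ℕ, g • x - x = c • t ∧ g • α = ζ ^ c * α := by
  rintro ⟨α, x, t, hα, ht, hpt, hpx, hnd, hact⟩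
  obtain ⟨a₀, ha₀, hma⟩ := ha
  have hp2 : p ≠ 2 := by omega
  have hp0 : p ≠ 0 := hp.ne_zero
  have hζ0 : ζ ≠ 0 := hζ.ne_zero hp0
  have hζp : ζ ^ p = 1 := hζ.pow_eq_one
  -- step 1
  obtain ⟨g₁, hg₁ζ, c₁, hg₁x, hg₁α, hc₁⟩ : ∃ g₁ : H, g₁ • ζ = ζ ∧ ∃ c₁ : ℕ,
      g₁ • x - x = c₁ • t ∧ g₁ • α = ζ ^ c₁ * α ∧ ¬ p ∣ c₁ := by
    by_contra hcon
    apply hnd
    refine ⟨α, fun g hg => ?_, map_pow v α p⟩
    obtain ⟨c, hc1, hc2⟩ := hact g hg
    have hpc : p ∣ c := by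
      by_contra hpc
      exact hcon ⟨g, hg, c, hc1, hc2, hpc⟩
    obtain ⟨w, rfl⟩ := hpc
    rw [hc2, pow_mul, hζp, one_pow, one_mul]
  -- step 2
  obtain ⟨u₁, w₁, hu₁⟩ := Peu_exists_mul hp hc₁
  have hone : ∀ w : ℕ, (1 + w * p) • t = t := by
    intro w
    rw [add_smul, one_smul, mul_smul, hpt, smul_zero, add_zero]
  have htL : InL v X p t := by
    refine ⟨hpt, ?_⟩
    have h1 := (smul_sub_mem_InL C J hp hp5 g₁ hpx).2
    rw [hg₁x] at h1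
    have h2 := InE0.nsmul C.xy C.hm1 C.hb.le h1 u₁
    rwa [← mul_smul, hu₁, hone] at h2
  -- step 3
  have hxE : ¬ InE0 v X x := by
    intro hx
    have h1 := smul_eq_nsmul C J hp hp5 hvp hmp hζ g₁ (c := 1) (by rw [pow_one, hg₁ζ])
      (⟨hpx, hx⟩ : InL v X p x)
    rw [one_smul] at h1
    rw [h1, sub_self] at hg₁x
    apply ht
    rw [← hone w₁, ← hu₁, mul_smul, ← hg₁x, smul_zero]
  have hx0 : x ≠ 0 := fun h => hxE (Or.inl h)
  have hXx : v (X x) < 1 := not_le.1 (fun h => hxE (Or.inr h))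
  -- step 4
  obtain ⟨k, hk0, hkp, hk⟩ := exists_mul_comp C.xy C.h2 C.hm1 C.hm0 C.hb hp hp2 hx0 hpx hXx
    (n := 1) one_pos (by omega)
  have hvm0 : 0 < v m := v.pos_iff.2 C.hm0
  have hρ1 : v (X (k • x)) < 1 := by
    by_contra h
    have h1 : 1 ≤ v (X (k • x)) ^ p := one_le_pow₀ (not_lt.1 h)
    rw [hk] at h1
    exact absurd (pow_lt_one₀ zero_le C.hm1 (by norm_num)) (not_lt.2 h1)
  have hmρ : v m < v (X (k • x)) ^ 2 := by
    apply lt_of_pow_lt_pow_left₀ p zero_le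
    rw [← pow_mul, mul_comm 2 p, pow_mul, hk, ← pow_mul]
    exact pow_lt_pow_right_of_lt_one₀ hvm0 C.hm1 (by omega)
  have hρa : v (X (k • x)) = v (a₀ ^ 2) := by
    rw [map_pow]
    apply (pow_left_inj₀ zero_le zero_le hp0).1
    rw [hk, hma, ← pow_mul, ← pow_mul, mul_one, mul_comm]
  have hXP0 : X (k • x) ≠ 0 := by
    intro h0
    rw [h0, map_zero, zero_pow hp0] at hk
    exact (pow_pos hvm0 _).ne hk
  have hP0 : k • x ≠ 0 := fun h => hXP0 (by rw [h, C.xy.X_zero])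
  have hkp' : ¬ p ∣ k := fun h => absurd (Nat.le_of_dvd hk0 h) (by omega)
  -- step 5
  have hck : ¬ p ∣ c₁ * k := by
    intro h
    rcases (Nat.Prime.dvd_mul hp).1 h with h | h
    · exact hc₁ h
    · exact hkp' h
  obtain ⟨n, w, hn⟩ := Peu_exists_mul hp hck
  have hg₀ζ : g₁ ^ n • ζ = ζ := (MulAction.stabilizer H ζ).pow_mem hg₁ζ n
  have hg₀α : g₁ ^ n • α = ζ ^ (c₁ * n) * α := Peu_pow_smul hg₁ζ hg₁α n
  obtain ⟨c₀, hc₀x, hc₀α⟩ := hact (g₁ ^ n) hg₀ζ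
  have hζc : ζ ^ c₀ = ζ ^ (c₁ * n) := mul_right_cancel₀ hα (hc₀α.symm.trans hg₀α)
  have hζck : ζ ^ (c₀ * k) = ζ ^ 1 := by
    have e : c₁ * n * k = 1 + p * w := by
      rw [mul_comm p w, ← hn]
      ring
    rw [pow_mul, hζc, ← pow_mul, e, pow_add, pow_mul, hζp, one_pow, mul_one]
  have hα'0 : α ^ k ≠ 0 := pow_ne_zero k hα
  have hactα' : ∀ (g : H) (c : ℕ), g • α = ζ ^ c * α → g • (α ^ k) = ζ ^ (c * k) * α ^ k := by
    intro g c h
    rw [smul_pow', h, mul_pow, ← pow_mul]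
  have hg₀α' : g₁ ^ n • (α ^ k) = ζ * α ^ k := by
    rw [hactα' _ c₀ hc₀α, hζck, pow_one]
  have hg₀P : g₁ ^ n • (k • x) = k • x + t := by
    have h1 : g₁ ^ n • (k • x) - k • x = t := by
      rw [smul_comm, ← smul_sub, hc₀x, ← mul_smul, mul_comm k c₀,
        Peu_smul_eq hp0 hζ hpt hζck, one_smul]
    rw [← h1]
    abel
  have hpK : (p : K) ≠ 0 := by
    intro h0
    rw [h0, map_zero, zero_pow two_ne_zero] at hmp
    exact not_lt_zero hmp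
  -- step 6
  have htr := tr_lemma (H := MulAction.stabilizer H ζ) v (fun g y => J.val g.1 y) hp hpK hζ
    (fun g => g.2) hα'0
    (fun g => by
      obtain ⟨c, -, hc⟩ := hact g.1 g.2
      exact ⟨c * k, hactα' g.1 c hc⟩)
    ⟨g₁ ^ n, hg₀ζ⟩ hg₀α'
    (x := X (k • x))
    (fun g hg => by
      obtain ⟨c, hcx, hcα⟩ := hact g.1 g.2
      have h1 : ζ ^ (c * k) * α ^ k = α ^ k := (hactα' g.1 c hcα).symm.trans hg
      have h2 : ζ ^ (c * k) = 1 := mul_right_cancel₀ hα'0 (by rw [h1, one_mul])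
      have h3 : p ∣ c * k := (hζ.pow_eq_one_iff_dvd _).1 h2
      have h4 : p ∣ c := ((Nat.Prime.dvd_mul hp).1 h3).resolve_right hkp'
      obtain ⟨w', rfl⟩ := h4
      have h5 : g.1 • x = x := by
        rw [mul_comm p w', mul_smul, hpt, smul_zero] at hcx
        exact sub_eq_zero.1 hcx
      show g.1 • X (k • x) = X (k • x)
      rw [← J.X_smul, smul_comm, h5])
    (by
      rintro ⟨b, hb, hvb⟩
      apply hnd
      obtain ⟨u, w', hu⟩ := Peu_exists_mul hp hkp'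
      refine ⟨b ^ u * ((α ^ p) ^ w')⁻¹, fun g hg => ?_, ?_⟩
      · have hb' : g • b = b := hb ⟨g, hg⟩
        have hαp : g • (α ^ p) = α ^ p := by
          obtain ⟨c, -, hc⟩ := hact g hg
          rw [smul_pow', hc, mul_pow, ← pow_mul, mul_comm c p, pow_mul, hζp, one_pow, one_mul]
        rw [smul_mul', smul_inv'', smul_pow', smul_pow', hb', hαp]
      · have hA : v α ≠ 0 := (v.ne_zero_iff).2 hα
        have hvb' : (v α ^ k) ^ p = v b ^ p := by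
          rw [← hvb, map_pow, map_pow]
        have e1 : (v b ^ u) ^ p = v α ^ p * ((v α ^ p) ^ w') ^ p := by
          rw [← pow_mul, mul_comm u p, pow_mul, ← hvb', ← pow_mul, ← pow_mul, ← pow_mul, ← pow_mul,
            ← pow_add]
          congr 1
          calc k * (p * u) = p * (u * k) := by ring
            _ = p + p * (w' * p) := by rw [hu]; ring
        rw [map_mul, map_inv₀, map_pow, map_pow, map_pow, map_pow, mul_pow, inv_pow, e1,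
          mul_inv_cancel_right₀ (pow_ne_zero _ (pow_ne_zero _ (pow_ne_zero _ hA)))])
    ⟨a₀ ^ 2, fun g => by
      show g.1 • (a₀ ^ 2) = a₀ ^ 2
      rw [smul_pow', ha₀], hρa⟩ hXP0
  -- step 7
  have h1t : 1 < v (X t) := (InL.inE1 C hp hp2 hvp hmp hζ htL).resolve_left ht
  have hes := es_val C.xy C.h2 C.hm1 C.hb hP0 ht hρ1 h1t hmρ
  have hdep := depth C hp hp2 hvp hmp hζ htL ht
  have htr' : v (X (k • x + t) - X (k • x)) < v (ζ - 1) * v (X (k • x)) := by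
    have e : (⟨g₁ ^ n, hg₀ζ⟩ : MulAction.stabilizer H ζ) • X (k • x) = X (k • x + t) := by
      show g₁ ^ n • X (k • x) = _
      rw [← J.X_smul, hg₀P]
    rwa [e] at htr
  have h1 : v (X (k • x + t) - X (k • x)) ^ 2 = (v (ζ - 1) * v (X (k • x))) ^ 2 := by
    calc v (X (k • x + t) - X (k • x)) ^ 2
        = v (X (k • x + t) - X (k • x)) ^ 2 * (v (X t) * v (ζ - 1) ^ 2) := by rw [hdep, mul_one]
      _ = (v (X (k • x + t) - X (k • x)) ^ 2 * v (X t)) * v (ζ - 1) ^ 2 := by rw [mul_assoc]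
      _ = v (X (k • x)) ^ 2 * v (ζ - 1) ^ 2 := by rw [hes]
      _ = (v (ζ - 1) * v (X (k • x))) ^ 2 := by rw [mul_pow, mul_comm]
  have h2 : v (X (k • x + t) - X (k • x)) ^ 2 < (v (ζ - 1) * v (X (k • x))) ^ 2 :=
    pow_lt_pow_left₀ htr' zero_le two_ne_zero
  exact absurd h1 h2.ne

end Fermat.Agent.S44.ELocal
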