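import Fermat.Agent.S44.Defs
import Fermat.Agent.S44.ELocal.Peu
import Fermat.Agent.S44.ELocal.Inertia
import Fermat.Agent.S44.ELocal.Line
import Fermat.Agent.Lib.Ell.CardRat
import Fermat.Agent.S13.AtP

/-!
# S44 / E-LOCAL, leaf CC-B : the local theorem for a curve over `ℚ` in Legendre form
-/

set_option autoImplicit false

namespace Fermat.Agent.S44.ELocal

open Fermat.Agent.S05 Fermat.Agent.S13 Fermat.Agent.S44
open WeierstrassCurve WeierstrassCurve.Affine WeierstrassCurve.Affine.Point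

/-- the conclusion of E-LOCAL (what the final assembly of S44 consumes). -/
structure LocalConcl (W' : Affine ℚ) (A : ValuationSubring Qb) (p : ℕ) : Prop where
  main : ∃ L : AddSubgroup (W'⁄Qb).Point,
    (∀ T ∈ L, p • T = 0) ∧ Nat.card L = p ∧
    (∀ σ ∈ A.inertiaSubgroupIn ℚ, ∀ x : (W'⁄Qb).Point, p • x = 0 → σ • x - x ∈ L) ∧
    (∀ σ ∈ A.inertiaSubgroupIn ℚ, ∀ (ζ : Qb) (c : ℕ), IsPrimitiveRoot ζ p → σ ζ = ζ ^ c →
      ∀ T ∈ L, σ • T = c • T)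
  peu : ¬ TresRam A p (Submodule.torsionBy ℤ (W'⁄Qb).Point p)

/-- LEAF CC-B (~300 lines, assembly).  `K = Qb`, `v = A.valuation`, `G = (W'⁄Qb).Point`,
`X = Xc e`, `Y = Yc`, `Z = Zc`, `m = α β`, `b₂ = -4(α+β)` (all mapped to `Qb`; copy the beginning of
`S13.sq_mem_E1_of_inertia`), `γ` a square root of `b₂` in `Qb` (`IsAlgClosed.exists_pow_nat_eq`),
`H = ↥(A.inertiaSubgroupIn ℚ)` (acts on `Qb` and on the points through the subgroup instances;
`Xc_smul`, `Yc_smul`), `ζ` any primitive `p`-th root of unity.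
`Ctx` from `isXY2_of`, `isLine_of`; `v m = v α = v(a₀)^p ≤ v(p)^p < v(p)²`;
`v b₂ = v(α + β) = 1`.  `hcard` from `Lib.Ell.card_nsmul_eq_zero_rat`.
`L := {T | InL v X p T}` (subgroup: `InE0.add`, `InE0.neg`).
`peu`: unfold `TresRam`; the elements `x t` of `torsionBy` give points; `not_tresRam_abs`
(with the `ζ` provided by `TresRam`). -/
theorem local_of_mult (W' : Affine ℚ) (hΔ : W'.Δ ≠ 0) (A : ValuationSubring Qb) {e α β a₀ : ℚ}
    (hb2 : W'.b₂ = -4 * (3 * e + α + β))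
    (hb4 : W'.b₄ = 2 * (3 * e ^ 2 + 2 * e * (α + β) + α * β))
    (hb6 : W'.b₆ = -4 * e * (e + α) * (e + β))
    (hα0 : α ≠ 0) (hβ : A.valuation (algebraMap ℚ Qb β) = 1)
    {p : ℕ} (hp : p.Prime) (hp5 : 5 ≤ p) (hA : A.LiesOverPrime p)
    (ha₀ : A.valuation (algebraMap ℚ Qb α) = A.valuation (algebraMap ℚ Qb a₀) ^ p)
    (ha₁ : A.valuation (algebraMap ℚ Qb a₀) ≤ A.valuation ((p : ℕ) : Qb)) :
    LocalConcl W' A p := by
  have hp2 : p ≠ 2 := by omega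
  have hvp : A.valuation ((p : ℕ) : Qb) < 1 := A.mem_nonunits_iff.mp hA
  have hvp0 : 0 < A.valuation ((p : ℕ) : Qb) :=
    zero_lt_iff.2 ((Valuation.ne_zero_iff _).2 (Nat.cast_ne_zero.2 hp.ne_zero))
  have h2 : A.valuation (2 : Qb) = 1 := by
    have : ¬ (p : ℤ) ∣ (2 : ℤ) := by
      intro h
      have h' : p ∣ 2 := by exact_mod_cast h
      exact hp2 ((Nat.prime_dvd_prime_iff_eq hp Nat.prime_two).mp h')
    have h3 := valInt_eq_one A.valuation hp hvp this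
    simpa using h3
  have h4 := v_four (v := A.valuation) h2
  have hb2' : (W'⁄Qb).b₂ = -4 * (3 * algebraMap ℚ Qb e + algebraMap ℚ Qb α + algebraMap ℚ Qb β) := by
    change (W'.map (algebraMap ℚ Qb)).b₂ = _
    rw [map_b₂, hb2]; simp
  have hb4' : (W'⁄Qb).b₄ = 2 * (3 * algebraMap ℚ Qb e ^ 2 + 2 * algebraMap ℚ Qb e *
      (algebraMap ℚ Qb α + algebraMap ℚ Qb β) + algebraMap ℚ Qb α * algebraMap ℚ Qb β) := by
    change (W'.map (algebraMap ℚ Qb)).b₄ = _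
    rw [map_b₄, hb4]; simp
  have hb6' : (W'⁄Qb).b₆ = -4 * algebraMap ℚ Qb e * (algebraMap ℚ Qb e + algebraMap ℚ Qb α) *
      (algebraMap ℚ Qb e + algebraMap ℚ Qb β) := by
    change (W'.map (algebraMap ℚ Qb)).b₆ = _
    rw [map_b₆, hb6]; simp
  have hXY := isXY2_of hb2' hb4' hb6'
  have hLn := isLine_of hb2' hb4' hb6'
  have hβ0 : algebraMap ℚ Qb β ≠ 0 := by
    intro h0; rw [h0, _root_.map_zero] at hβ; exact zero_ne_one hβ
  have hα1 : A.valuation (algebraMap ℚ Qb α) < 1 := by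
    rw [ha₀]
    exact pow_lt_one₀ zero_le (lt_of_le_of_lt ha₁ hvp) hp.ne_zero
  have hvm : A.valuation (algebraMap ℚ Qb α * algebraMap ℚ Qb β)
      = A.valuation (algebraMap ℚ Qb a₀) ^ p := by
    rw [map_mul, hβ, mul_one, ha₀]
  have hvb : A.valuation (-4 * (algebraMap ℚ Qb α + algebraMap ℚ Qb β)) = 1 := by
    rw [map_mul, Valuation.map_neg, h4, one_mul, add_comm, ← hβ]
    exact Valuation.map_add_eq_of_lt_left _ (by rw [hβ]; exact hα1)
  obtain ⟨γ, hγ⟩ := IsAlgClosed.exists_pow_nat_eq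
    (-4 * (algebraMap ℚ Qb α + algebraMap ℚ Qb β)) (n := 2) (by norm_num)
  have C : Ctx A.valuation (Xc (algebraMap ℚ Qb e) : (W'⁄Qb).Point → Qb) Yc Zc
      (algebraMap ℚ Qb α * algebraMap ℚ Qb β) (-4 * (algebraMap ℚ Qb α + algebraMap ℚ Qb β)) γ :=
    { xy := hXY
      ln := hLn
      h2 := h2
      hm1 := by rw [map_mul, hβ, mul_one]; exact hα1
      hm0 := mul_ne_zero ((_root_.map_ne_zero _).mpr hα0) hβ0
      hb := hvb
      hγ := hγ }
  have hbr : -4 * (algebraMap ℚ Qb α + algebraMap ℚ Qb β) = algebraMap ℚ Qb (-4 * (α + β)) := by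
    simp
  have J : IsInertia A.valuation (Xc (algebraMap ℚ Qb e) : (W'⁄Qb).Point → Qb) Yc γ
      ↥(A.inertiaSubgroupIn ℚ) :=
    { X_smul := fun g P => Xc_smul W' (g : GQ) e P
      Y_smul := fun g P => Yc_smul W' (g : GQ) P
      val := fun g x => inertia_val A g.2 x
      cong := fun g x hx => inertia_congr A g.2 hx
      fixγ := fun g => inertia_fix_sqrt A g.2 h2 (hγ.trans hbr) (by rw [← hbr]; exact hvb) }
  have hmp : A.valuation (algebraMap ℚ Qb α * algebraMap ℚ Qb β)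
      < A.valuation ((p : ℕ) : Qb) ^ 2 := by
    rw [hvm]
    calc A.valuation (algebraMap ℚ Qb a₀) ^ p ≤ A.valuation ((p : ℕ) : Qb) ^ p :=
          pow_le_pow_left₀ zero_le ha₁ p
      _ < A.valuation ((p : ℕ) : Qb) ^ 2 := pow_lt_pow_right_of_lt_one₀ hvp0 hvp (by omega)
  have hcard : Nat.card {P : (W'⁄Qb).Point // p • P = 0} = p ^ 2 :=
    Fermat.Agent.Lib.Ell.card_nsmul_eq_zero_rat W' hΔ p hp.pos
  have : NeZero p := ⟨hp.ne_zero⟩
  obtain ⟨ζ, hζ⟩ := HasEnoughRootsOfUnity.exists_primitiveRoot Qb p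
  let L : AddSubgroup (W'⁄Qb).Point :=
    { carrier := {T | InL A.valuation (Xc (algebraMap ℚ Qb e)) p T}
      zero_mem' := ⟨smul_zero p, Or.inl rfl⟩
      add_mem' := fun {a b} ha hb =>
        ⟨by rw [smul_add, ha.1, hb.1, add_zero], InE0.add hXY C.hm1 C.hb.le ha.2 hb.2⟩
      neg_mem' := fun {a} ha => ⟨by rw [smul_neg, ha.1, _root_.neg_zero], InE0.neg hXY ha.2⟩ }
  refine ⟨⟨L, fun T hT => hT.1, ?_, ?_, ?_⟩, ?_⟩
  · exact card_InL C J hp hp5 hvp hmp hζ hcard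
  · intro σ hσ x hx
    exact smul_sub_mem_InL C J hp hp5 (⟨σ, hσ⟩ : ↥(A.inertiaSubgroupIn ℚ)) hx
  · intro σ hσ ζ' c hζ' hc T hT
    exact smul_eq_nsmul C J hp hp5 hvp hmp hζ' (⟨σ, hσ⟩ : ↥(A.inertiaSubgroupIn ℚ)) hc hT
  · rintro ⟨ζ', α₁, x, t, hζ', hα₁, ht, hpt, hpx, hnd, hc⟩
    refine not_tresRam_abs C J hp hp5 hvp hmp hζ'
      ⟨algebraMap ℚ Qb a₀, fun g => (g : GQ).commutes a₀, hvm⟩
      ⟨α₁, (x : (W'⁄Qb).Point), (t : (W'⁄Qb).Point), hα₁, ?_, ?_, ?_, ?_, ?_⟩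
    · intro h0
      exact ht (Subtype.ext h0)
    · exact congrArg Subtype.val hpt
    · exact congrArg Subtype.val hpx
    · rintro ⟨b, hb, hvb'⟩
      exact hnd ⟨b, fun σ hσ h => hb ⟨σ, hσ⟩ h, hvb'⟩
    · intro g hg
      obtain ⟨c, h1, h2'⟩ := hc (g : GQ) g.2 hg
      exact ⟨c, congrArg Subtype.val h1, h2'⟩

end Fermat.Agent.S44.ELocal
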