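import Fermat.Agent.S44.ELocal.Defs

/-!
# S44 / E-LOCAL, leaf CR : a `p`-torsion point of the kernel of reduction is not too deep
-/

set_option autoImplicit false

namespace Fermat.Agent.S44.ELocal

open Fermat.Agent.S05 Fermat.Agent.S13

variable {G : Type*} [AddCommGroup G] {K : Type*} [Field K]
  {Γ₀ : Type*} [LinearOrderedCommGroupWithZero Γ₀]
  {v : Valuation K Γ₀} {X Y Z : G → K} {m b₂ : K}

lemma Crude_step (hm : v m ≤ 1) (hb : v b₂ ≤ 1) {s c c' c'' n : K} (hs : v s < 1) (hs0 : s ≠ 0)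
    (hn : v n ≤ 1)
    (hc : v (c - (n + 1) ^ 2) ≤ v s) (hc' : v (c' - n ^ 2) ≤ v s)
    (hU : (c'' * s + c' * s) * (1 - m * s * (c * s)) ^ 2 =
      2 * (s + c * s) * (1 + m * s * (c * s)) + b₂ * (s * (c * s))) :
    v (c'' - (n + 2) ^ 2) ≤ v s := by
  have hs1 : v s ≤ 1 := hs.le
  have h1 : v (1 : K) ≤ 1 := le1_one v
  have h2 : v (2 : K) ≤ 1 := le1_ofNat v 2
  have hcI : v c ≤ 1 := by
    have : c = (c - (n + 1) ^ 2) + (n + 1) ^ 2 := by ring
    rw [this]
    exact le1_add v (hc.trans hs1) (le1_pow v (le1_add v hn h1) 2)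
  have hcI' : v c' ≤ 1 := by
    have : c' = (c' - n ^ 2) + n ^ 2 := by ring
    rw [this]
    exact le1_add v (hc'.trans hs1) (le1_pow v hn 2)
  have hU' : (c'' + c') * (1 - m * s * (c * s)) ^ 2 =
      2 * (1 + c) * (1 + m * s * (c * s)) + b₂ * (s * c) := by
    apply mul_left_cancel₀ hs0
    linear_combination hU
  have hD : v (1 - m * s * (c * s)) = 1 := by
    apply Valuation.map_one_sub_of_lt
    exact lt1_mul_left v (lt1_mul_right v hm hs) (le1_mul v hcI hs1)
  have e : (c'' - (n + 2) ^ 2) * (1 - m * s * (c * s)) ^ 2 =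
      2 * (c - (n + 1) ^ 2) - (c' - n ^ 2) + s * (2 * (1 + c) * m * s * c + b₂ * c
        + (c' + (n + 2) ^ 2) * (2 * m * s * c - m ^ 2 * s ^ 3 * c ^ 2)) := by
    linear_combination hU'
  have hv : v (c'' - (n + 2) ^ 2) = v ((c'' - (n + 2) ^ 2) * (1 - m * s * (c * s)) ^ 2) := by
    rw [map_mul, map_pow, hD, one_pow, mul_one]
  rw [hv, e]
  have t1 : v (2 * (c - (n + 1) ^ 2)) ≤ v s := by
    rw [map_mul]
    exact (mul_le_of_le_one_left' h2).trans hc
  have hI : v (2 * (1 + c) * m * s * c + b₂ * c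
        + (c' + (n + 2) ^ 2) * (2 * m * s * c - m ^ 2 * s ^ 3 * c ^ 2)) ≤ 1 := by
    apply_rules [le1_add, le1_sub, le1_mul, le1_pow]
  have t3 : v (s * (2 * (1 + c) * m * s * c + b₂ * c
        + (c' + (n + 2) ^ 2) * (2 * m * s * c - m ^ 2 * s ^ 3 * c ^ 2))) ≤ v s := by
    rw [map_mul]
    exact mul_le_of_le_one_right' hI
  exact (Valuation.map_add v _ _).trans
    (max_le ((Valuation.map_sub v _ _).trans (max_le t1 hc')) t3)

/-- QUANTITATIVE VERSION OF `S13.claimA` (file `S13/LocalA.lean`; same induction, same identities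
`lemU`, `claimA_step`): with `s = (X T)⁻¹`, `v s < 1`, one has for all `k`
`v ((X (k • T))⁻¹ * X T - k²) ≤ v s`
(in `claimA_step` the error term is `2(c-(n+1)²) - (c'-n²) + s * (integral)`, so the bound `≤ v s`
propagates exactly like the bound `< 1`).  For `k = p`: `X (p • T) = X 0 = 0`, so `v(p²) ≤ v s`. -/
theorem crude_bound (h : IsXY2 X Y Z m b₂) (hm1 : v m ≤ 1) (hb : v b₂ ≤ 1) (hm0 : m ≠ 0)
    {p : ℕ} (hp : p.Prime) (hp2 : p ≠ 2) {T : G} (hT : T ≠ 0) (hpT : p • T = 0)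
    (hx : 1 < v (X T)) : v (X T) * v (p : K) ^ 2 ≤ 1 := by
  have hP1 := hx
  have hx0 : X T ≠ 0 := by
    intro h0; rw [h0, map_zero] at hP1; exact absurd hP1 (by simp)
  have hs : v (X T)⁻¹ < 1 := by
    rw [map_inv₀]
    exact inv_lt_one_of_one_lt₀ hP1
  have hs0 : (X T)⁻¹ ≠ 0 := inv_ne_zero hx0
  have hPP := add_self_ne_zero_of_prime hp hp2 hT hpT
  have key : ∀ k : ℕ, v ((X (k • T))⁻¹ * X T - (k : K) ^ 2) ≤ v (X T)⁻¹ ∧
      v ((X ((k + 1) • T))⁻¹ * X T - ((k : K) + 1) ^ 2) ≤ v (X T)⁻¹ := by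
    intro k
    induction k with
    | zero => simp [h.X_zero, hx0]
    | succ k ih =>
      refine ⟨by push_cast; exact ih.2, ?_⟩
      have hcI : v ((X ((k + 1) • T))⁻¹ * X T) ≤ 1 := by
        have : (X ((k + 1) • T))⁻¹ * X T =
            ((X ((k + 1) • T))⁻¹ * X T - ((k : K) + 1) ^ 2) + ((k : K) + 1) ^ 2 := by ring
        rw [this]
        exact le1_add v (ih.2.trans hs.le)
          (le1_pow v (le1_add v (le1_natCast v k) (le1_one v)) 2)
      have hQ : (k + 1) • T = 0 ∨ 1 < v (X ((k + 1) • T)) := by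
        by_cases hQ0 : (k + 1) • T = 0
        · exact Or.inl hQ0
        · right
          have hpQ : p • ((k + 1) • T) = 0 := by
            rw [smul_comm, hpT, smul_zero]
          have hXQ := X_ne_zero_of_torsion h hm0 hp hp2 hQ0 hpQ
          have h1 : v (X ((k + 1) • T))⁻¹ < 1 := by
            have : (X ((k + 1) • T))⁻¹ = ((X ((k + 1) • T))⁻¹ * X T) * (X T)⁻¹ := by
              rw [mul_inv_cancel_right₀ hx0]
            rw [this]
            exact lt1_mul_right v hcI hs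
          rw [map_inv₀] at h1
          have hv0 : 0 < v (X ((k + 1) • T)) := by
            rw [zero_lt_iff]; exact (Valuation.ne_zero_iff v).mpr hXQ
          exact (inv_lt_one₀ hv0).mp h1
      have U := lemU h hm1 hT hP1 hPP hQ
      have e1 : (k + 1) • T + T = (k + 1 + 1) • T := (succ_nsmul T (k + 1)).symm
      have e2 : (k + 1) • T - T = k • T := by rw [succ_nsmul]; abel
      rw [e1, e2] at U
      have := Crude_step (v := v) (m := m) (b₂ := b₂) hm1 hb (s := (X T)⁻¹)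
        (c := (X ((k + 1) • T))⁻¹ * X T) (c' := (X (k • T))⁻¹ * X T)
        (c'' := (X ((k + 1 + 1) • T))⁻¹ * X T) (n := (k : K)) hs hs0 (le1_natCast v k) ih.2 ih.1
        (by simp only [mul_inv_cancel_right₀ hx0]; exact U)
      push_cast
      have e3 : (k : K) + 1 + 1 = (k : K) + 2 := by ring
      rw [e3]
      exact this
  have := (key p).1
  rw [hpT, h.X_zero, inv_zero, zero_mul, zero_sub, Valuation.map_neg, map_pow, map_inv₀] at this
  have hv0 : v (X T) ≠ 0 := (Valuation.ne_zero_iff v).mpr hx0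
  calc v (X T) * v (p : K) ^ 2 ≤ v (X T) * (v (X T))⁻¹ := by gcongr
    _ = 1 := mul_inv_cancel₀ hv0

end Fermat.Agent.S44.ELocal
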