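import Fermat.Agent.S13.LocalP
import Fermat.Agent.S13.LocalNode

/-!
# S44, block E-LOCAL : the `p`-torsion of a curve with multiplicative reduction at `p`
(`p ∣ v(Δ)`), abstract setting.  Definitions.

Model `Y² = 4X³ + b₂X² + 4mX`, `v(m) < 1`, `v(b₂) = 1` (node at `X = 0`), `γ² = b₂`.
`G` = the group of points, `X Y : G → K` the coordinates (`X 0 = 0`), as in `S13.IsXY2`.
`E₀ = S13.InE0` (points not reducing to the node), `E₁ = S13.InE1` (kernel of reduction).
Valuations are written multiplicatively (`v x < 1` = positive valuation).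
-/

set_option autoImplicit false

namespace Fermat.Agent.S44.ELocal

open Fermat.Agent.S05 Fermat.Agent.S13

variable {G : Type*} [AddCommGroup G] {K : Type*} [Field K]
  {Γ₀ : Type*} [LinearOrderedCommGroupWithZero Γ₀]

/-- the chord-tangent description of the group law: `P`, `Q`, `-(P+Q)` are the three intersection
points of the cubic `Y² = 4X³ + b₂X² + 4mX` with a line `Y = μ X + ν`. -/
structure IsLine (X Y : G → K) (m b₂ : K) : Prop where
  line : ∀ {P Q : G}, P ≠ 0 → Q ≠ 0 → P + Q ≠ 0 → ∃ μ ν : K,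
    Y P = μ * X P + ν ∧ Y Q = μ * X Q + ν ∧ -Y (P + Q) = μ * X (P + Q) + ν ∧
    4 * (X P + X Q + X (P + Q)) = μ ^ 2 - b₂ ∧
    4 * (X P * X Q + X P * X (P + Q) + X Q * X (P + Q)) = 4 * m - 2 * μ * ν ∧
    4 * (X P * X Q * X (P + Q)) = ν ^ 2

/-- the standing hypotheses. -/
structure Ctx (v : Valuation K Γ₀) (X Y Z : G → K) (m b₂ γ : K) : Prop where
  xy : IsXY2 X Y Z m b₂
  ln : IsLine X Y m b₂
  h2 : v (2 : K) = 1
  hm1 : v m < 1
  hm0 : m ≠ 0
  hb : v b₂ = 1
  hγ : γ ^ 2 = b₂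

open Classical in
/-- the approximate character `s = (Y - γX)/(Y + γX)` (`s 0 = 1`). -/
noncomputable def sF (X Y : G → K) (γ : K) (P : G) : K :=
  if P = 0 then 1 else (Y P - γ * X P) / (Y P + γ * X P)

/-- `T ∈ E₀[p]`. -/
def InL (v : Valuation K Γ₀) (X : G → K) (p : ℕ) (T : G) : Prop := p • T = 0 ∧ InE0 v X T

/-- `s(T)` is close to `ζ^i`. -/
def IsIdx (v : Valuation K Γ₀) (X Y : G → K) (γ ζ : K) (T : G) (i : ℕ) : Prop :=
  v (sF X Y γ T - ζ ^ i) < v (ζ - 1)

end Fermat.Agent.S44.ELocal
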