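import Fermat.Agent.S44.ELocal.Concrete

/-!
# S44 / E-LOCAL, leaf FR : the Frey curve at `p` when `p ∣ abc`
-/

set_option autoImplicit false

namespace Fermat.Agent.S44.ELocal

open Fermat.Agent.S05 Fermat.Agent.S13 Fermat.Agent.S44

/-- LEAF FR.  Three cases as in `S13.frey_sq_mem_E1` (`S13/AtP.lean`), same `(e, α, β)`:
* `p ∣ b`: `e = 0`, `α = -b^p/4`, `β = a^p/4`, `a₀ = b`;
* `p ∣ c`: `e = a^p/4`, `α = -c^p/4`, `β = -a^p/4`, `a₀ = c`;
* `p ∣ a`: `e = 0`, `α = a^p/4`, `β = -b^p/4`, `a₀ = a`.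
`v(α) = v(a₀)^p` by `val_pow_div_four` / `val_neg_pow_div_four`; `v(a₀) ≤ v(p)` since `p ∣ a₀`
(`a₀ = p k`, `valInt_le`); `Δ ≠ 0`: `S13.frey_Δ_ne_zero`. -/
theorem frey_local (P : FreyPackage) (A : ValuationSubring Qb) (hA : A.LiesOverPrime P.p)
    (hdvd : (P.p : ℤ) ∣ P.a * P.b * P.c) : LocalConcl P.freyCurve A P.p := by
  have hq := P.pp
  have hp2 : P.p ≠ 2 := by have := P.hp5; omega
  have hvq : A.valuation ((P.p : ℕ) : Qb) < 1 := A.mem_nonunits_iff.mp hA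
  have one_of : ∀ {n : ℤ}, ¬ (P.p : ℤ) ∣ n →
      A.valuation (algebraMap ℚ Qb (n : ℚ)) = 1 := by
    intro n hn
    rw [map_intCast]
    exact valInt_eq_one _ hq hvq hn
  have dvd_of : ∀ {n : ℤ}, (P.p : ℤ) ∣ n →
      A.valuation (algebraMap ℚ Qb (n : ℚ)) ≤ A.valuation ((P.p : ℕ) : Qb) := by
    rintro n ⟨k, rfl⟩
    rw [map_intCast]
    push_cast
    rw [map_mul]
    exact mul_le_of_le_one_right zero_le (valInt_le _ k)
  have h2 : A.valuation (2 : Qb) = 1 := by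
    have : ¬ (P.p : ℤ) ∣ (2 : ℤ) := by
      intro h
      have h' : P.p ∣ 2 := by exact_mod_cast h
      exact hp2 ((Nat.prime_dvd_prime_iff_eq hq Nat.prime_two).mp h')
    have h3 := valInt_eq_one A.valuation hq hvq this
    simpa using h3
  have hFLT := frey_FLT P
  have ha0 : (P.a : ℚ) ^ P.p ≠ 0 := pow_ne_zero _ (by exact_mod_cast P.ha0)
  have hb0 : (P.b : ℚ) ^ P.p ≠ 0 := pow_ne_zero _ (by exact_mod_cast P.hb0)
  have hc0 : (P.c : ℚ) ^ P.p ≠ 0 := pow_ne_zero _ (by exact_mod_cast P.hc0)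
  have hΔ : P.freyCurve.Δ ≠ 0 := by
    have e : P.freyCurve.Δ =
        ((P.a : ℚ) ^ P.p * (P.b : ℚ) ^ P.p * (P.c : ℚ) ^ P.p) ^ 2 / 256 := by
      rw [← hFLT]
      simp only [FreyPackage.freyCurve, WeierstrassCurve.Δ, WeierstrassCurve.b₂,
        WeierstrassCurve.b₄, WeierstrassCurve.b₆, WeierstrassCurve.b₈]
      ring
    rw [e]
    positivity
  by_cases hb : (P.p : ℤ) ∣ P.b
  · have ha : ¬ (P.p : ℤ) ∣ P.a := not_dvd_of_gcd hq (by rw [gcd_comm]; exact P.hgcdab) hb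
    refine local_of_mult P.freyCurve hΔ A (e := 0) (α := -(P.b : ℚ) ^ P.p / 4)
      (β := (P.a : ℚ) ^ P.p / 4) (a₀ := (P.b : ℚ)) ?_ ?_ ?_ ?_ ?_ hq P.hp5 hA ?_ (dvd_of hb)
    · rw [frey_b₂]; ring
    · rw [frey_b₄]; ring
    · rw [frey_b₆]; ring
    · exact div_ne_zero (neg_ne_zero.mpr hb0) (by norm_num)
    · rw [val_pow_div_four _ h2, one_of ha, one_pow]
    · rw [val_neg_pow_div_four _ h2]
  by_cases hc : (P.p : ℤ) ∣ P.c
  · have ha : ¬ (P.p : ℤ) ∣ P.a := not_dvd_of_gcd hq (by rw [gcd_comm]; exact P.hgcdac) hc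
    refine local_of_mult P.freyCurve hΔ A (e := (P.a : ℚ) ^ P.p / 4)
      (α := -(P.c : ℚ) ^ P.p / 4) (β := -(P.a : ℚ) ^ P.p / 4) (a₀ := (P.c : ℚ)) ?_ ?_ ?_ ?_ ?_
      hq P.hp5 hA ?_ (dvd_of hc)
    · rw [frey_b₂, ← hFLT]; ring
    · rw [frey_b₄, ← hFLT]; ring
    · rw [frey_b₆]; ring
    · exact div_ne_zero (neg_ne_zero.mpr hc0) (by norm_num)
    · rw [val_neg_pow_div_four _ h2, one_of ha, one_pow]
    · rw [val_neg_pow_div_four _ h2]
  · have ha : (P.p : ℤ) ∣ P.a := by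
      have hpr := Nat.prime_iff_prime_int.mp hq
      rcases hpr.dvd_or_dvd hdvd with h | h
      · rcases hpr.dvd_or_dvd h with h | h
        · exact h
        · exact absurd h hb
      · exact absurd h hc
    refine local_of_mult P.freyCurve hΔ A (e := 0) (α := (P.a : ℚ) ^ P.p / 4)
      (β := -(P.b : ℚ) ^ P.p / 4) (a₀ := (P.a : ℚ)) ?_ ?_ ?_ ?_ ?_ hq P.hp5 hA ?_ (dvd_of ha)
    · rw [frey_b₂]; ring
    · rw [frey_b₄]; ring
    · rw [frey_b₆]; ring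
    · exact div_ne_zero ha0 (by norm_num)
    · rw [val_neg_pow_div_four _ h2, one_of hb, one_pow]
    · rw [val_pow_div_four _ h2]

end Fermat.Agent.S44.ELocal
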