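import Fermat.Agent.S44.ELocal.SFun2
import Fermat.Agent.S44.ELocal.Roots
import Fermat.Agent.S44.ELocal.Crude

/-!
# S44 / E-LOCAL, leaf IX-A : the index of a point of `E₀[p]`, exact depth
-/

set_option autoImplicit false

namespace Fermat.Agent.S44.ELocal

open Fermat.Agent.S05 Fermat.Agent.S13

variable {G : Type*} [AddCommGroup G] {K : Type*} [Field K]
  {Γ₀ : Type*} [LinearOrderedCommGroupWithZero Γ₀]
  {v : Valuation K Γ₀} {X Y Z : G → K} {m b₂ γ : K}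
  (C : Ctx v X Y Z m b₂ γ) {p : ℕ} (hp : p.Prime) (hp2 : p ≠ 2) (hvp : v (p : K) < 1)
  (hmp : v m < v (p : K) ^ 2) {ζ : K} (hζ : IsPrimitiveRoot ζ p)

include C hp hp2 hvp hmp hζ

/-- `exists_close_root` for `s = s(T)` and `sF_pow_sub_one`:
`v(s-ζ^i) v(p) ≤ v(m) < v(p)²`, so `v(s - ζ^i) < v(p) < v(ζ-1)`. -/
theorem exists_idx {T : G} (hT : InL v X p T) :
    ∃ i < p, v (sF X Y γ T - ζ ^ i) < v (p : K) := by
  obtain ⟨i, hi, h⟩ := exists_close_root v hp hζ (sF X Y γ T)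
  refine ⟨i, hi, ?_⟩
  have h1 : v (sF X Y γ T - ζ ^ i) * v (p : K) < v (p : K) * v (p : K) := by
    rw [← sq]
    exact (h.trans (sF_pow_sub_one C hT)).trans_lt hmp
  exact lt_of_mul_lt_mul_right h1 zero_le

theorem exists_isIdx {T : G} (hT : InL v X p T) : ∃ i < p, IsIdx v X Y γ ζ T i := by
  obtain ⟨i, hi, h⟩ := exists_idx C hp hp2 hvp hmp hζ hT
  exact ⟨i, hi, h.trans (val_p_lt_val_zeta_sub_one v hp hζ hp2 hvp).1⟩

omit C hp2 hvp hmp in
/-- `ζ^i - ζ^j = (s - ζ^j) - (s - ζ^i)` and `val_zeta_pow_sub_pow`. -/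
theorem IsIdx.unique {T : G} {i j : ℕ} (hi : IsIdx v X Y γ ζ T i) (hj : IsIdx v X Y γ ζ T j) :
    i ≡ j [MOD p] := by
  by_contra hij
  have h1 := val_zeta_pow_sub_pow v hp hζ hij
  have h2 : ζ ^ i - ζ ^ j = (sF X Y γ T - ζ ^ j) - (sF X Y γ T - ζ ^ i) := by ring
  have h3 : v (ζ ^ i - ζ ^ j) < v (ζ - 1) := by
    rw [h2]
    exact Valuation.map_sub_lt _ hj hi
  rw [h1] at h3
  exact lt_irrefl _ h3

/-- `s(T+T') = s s' u`, `v(u - 1) ≤ v m < v(ζ-1)`, all of `s, s', ζ` are units: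
`s s' u - ζ^(i+j) = s s'(u-1) + s(s'-ζ^j) + ζ^j(s-ζ^i)`. -/
theorem IsIdx.add {T T' : G} {i j : ℕ} (hT : InE0 v X T) (hT' : InE0 v X T')
    (hi : IsIdx v X Y γ ζ T i) (hj : IsIdx v X Y γ ζ T' j) : IsIdx v X Y γ ζ (T + T') (i + j) := by
  obtain ⟨u, hu, hs⟩ := sF_add C hT hT'
  have hunit : ∀ {P : G}, InE0 v X P → v (sF X Y γ P) = 1 := by
    intro P hP
    by_cases hP0 : P = 0
    · rw [hP0, sF_zero, map_one]
    · exact (sF_val C hP0 (hP.resolve_left hP0)).1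
  have hvζ : v ζ = 1 :=
    (pow_left_inj₀ zero_le zero_le hp.ne_zero).1
      (by rw [one_pow, ← map_pow, hζ.pow_eq_one, map_one])
  have hmζ : v m < v (ζ - 1) := by
    refine hmp.trans (lt_of_le_of_lt ?_ (val_p_lt_val_zeta_sub_one v hp hζ hp2 hvp).1)
    rw [sq]
    exact mul_le_of_le_one_left zero_le hvp.le
  have h2 : sF X Y γ T * sF X Y γ T' * u - ζ ^ (i + j) =
      sF X Y γ T * sF X Y γ T' * (u - 1) + sF X Y γ T * (sF X Y γ T' - ζ ^ j) +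
        ζ ^ j * (sF X Y γ T - ζ ^ i) := by ring
  unfold IsIdx at *
  rw [hs, h2]
  refine Valuation.map_add_lt _ (Valuation.map_add_lt _ ?_ ?_) ?_
  · rw [map_mul, map_mul, hunit hT, hunit hT', one_mul, one_mul]
    exact hu.trans_lt hmζ
  · rw [map_mul, hunit hT, one_mul]
    exact hj
  · rw [map_mul, map_pow, hvζ, one_pow, one_mul]
    exact hi

/-- THE KEY POINT.  Let `T ≠ 0`.  By `exists_idx` and `IsIdx.unique` (index `≡ 0`, so `ζ^i = 1`):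
`v(s - 1) < v(p)`.  By `sF_val`: `v(1-s)² v(X T) = 1`, so `v (X T) > 1` and
`v(X T) v(p)² > 1`, contradicting `crude_bound`. -/
theorem eq_zero_of_isIdx_zero {T : G} (hT : InL v X p T) (h0 : IsIdx v X Y γ ζ T 0) : T = 0 := by
  by_contra hT0
  obtain ⟨i, hi, h⟩ := exists_idx C hp hp2 hvp hmp hζ hT
  have hidx : IsIdx v X Y γ ζ T i := h.trans (val_p_lt_val_zeta_sub_one v hp hζ hp2 hvp).1
  have hi0 : i = 0 := by
    have h1 : i % p = 0 % p := IsIdx.unique hp hζ hidx h0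
    rwa [Nat.mod_eq_of_lt hi, Nat.zero_mod] at h1
  subst hi0
  rw [pow_zero, Valuation.map_sub_swap] at h
  have hx : 1 ≤ v (X T) := hT.2.resolve_left hT0
  have h1 := (sF_val C hT0 hx).2
  have hxpos : 0 < v (X T) := lt_of_lt_of_le zero_lt_one hx
  have h2 : v (1 - sF X Y γ T) ^ 2 < v (p : K) ^ 2 := pow_lt_pow_left₀ h zero_le two_ne_zero
  have h3 : 1 < v (X T) * v (p : K) ^ 2 := by
    rw [← h1, mul_comm]
    exact mul_lt_mul_of_pos_left h2 hxpos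
  have hx1 : 1 < v (X T) := by
    by_contra hle
    have hle' : v (X T) ≤ 1 := not_lt.1 hle
    have h4 : v (X T) * v (p : K) ^ 2 ≤ 1 :=
      mul_le_one' hle' (pow_le_one₀ zero_le hvp.le)
    exact absurd h3 (not_lt.2 h4)
  exact absurd h3 (not_lt.2 (crude_bound C.xy C.hm1.le C.hb.le C.hm0 hp hp2 hT0 hT.1 hx1))

/-- index `i`, `0 < i < p` (by `eq_zero_of_isIdx_zero`), so
`v(1 - s) = v((1-ζ^i) - (s - ζ^i)) = v(ζ-1)`; `sF_val`. -/
theorem depth {T : G} (hT : InL v X p T) (hT0 : T ≠ 0) : v (X T) * v (ζ - 1) ^ 2 = 1 := by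
  obtain ⟨i, hi, hidx⟩ := exists_isIdx C hp hp2 hvp hmp hζ hT
  have hi0 : i ≠ 0 := by
    rintro rfl
    exact hT0 (eq_zero_of_isIdx_zero C hp hp2 hvp hmp hζ hT hidx)
  have hpi : ¬ p ∣ i := Nat.not_dvd_of_pos_of_lt (Nat.pos_of_ne_zero hi0) hi
  have h1 : v (1 - ζ ^ i) = v (ζ - 1) := by
    rw [Valuation.map_sub_swap]
    exact val_zeta_pow_sub_one v hp hζ hpi
  have h2 : 1 - sF X Y γ T = (1 - ζ ^ i) - (sF X Y γ T - ζ ^ i) := by ring
  have h3 : v (1 - sF X Y γ T) = v (ζ - 1) := by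
    rw [h2, Valuation.map_sub_eq_of_lt_left _ (by rw [h1]; exact hidx), h1]
  have h4 := (sF_val C hT0 (hT.2.resolve_left hT0)).2
  rw [h3, mul_comm] at h4
  exact h4

end Fermat.Agent.S44.ELocal
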