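import Fermat.Agent.S44.ELocal.Index

/-!
# S44 / E-LOCAL, leaf IX-B : `E₀[p]` embeds in `ℤ/p`; Galois action
-/

set_option autoImplicit false

namespace Fermat.Agent.S44.ELocal

open Fermat.Agent.S05 Fermat.Agent.S13

variable {G : Type*} [AddCommGroup G] {K : Type*} [Field K]
  {Γ₀ : Type*} [LinearOrderedCommGroupWithZero Γ₀]
  {v : Valuation K Γ₀} {X Y Z : G → K} {m b₂ γ : K}
  (C : Ctx v X Y Z m b₂ γ) {p : ℕ} (hp : p.Prime) (hp2 : p ≠ 2) (hvp : v (p : K) < 1)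
  (hmp : v m < v (p : K) ^ 2) {ζ : K} (hζ : IsPrimitiveRoot ζ p)

include C hp hp2 hvp hmp hζ

/-- the index of `k • T`. -/
theorem Index2_isIdx_nsmul {T : G} {i : ℕ} (hT : InE0 v X T) (hi : IsIdx v X Y γ ζ T i) (k : ℕ) :
    IsIdx v X Y γ ζ (k • T) (k * i) := by
  induction k with
  | zero =>
    have hζ1 : ζ - 1 ≠ 0 := sub_ne_zero.2 (hζ.ne_one hp.one_lt)
    show v (sF X Y γ ((0 : ℕ) • T) - ζ ^ (0 * i)) < v (ζ - 1)
    rw [zero_smul, sF_zero, zero_mul, pow_zero, sub_self, map_zero]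
    exact zero_lt_iff.2 ((Valuation.ne_zero_iff _).2 hζ1)
  | succ k ih =>
    rw [succ_nsmul, Nat.succ_mul]
    exact IsIdx.add C hp hp2 hvp hmp hζ (InE0.nsmul C.xy C.hm1 C.hb.le hT k) hT ih hi

/-- same index ⟹ equal (`T - T'` has index `i + (p-1) i ≡ 0`; `sF_neg`; or directly
`s(T-T') = s s'⁻¹ u`). -/
theorem eq_of_isIdx {T T' : G} {i : ℕ} (hT : InL v X p T) (hT' : InL v X p T')
    (hi : IsIdx v X Y γ ζ T i) (hi' : IsIdx v X Y γ ζ T' i) : T = T' := by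
  have hneg : (p - 1) • T' = -T' := by
    have h1 : (p - 1) • T' + T' = 0 := by
      rw [← succ_nsmul, Nat.sub_add_cancel hp.one_lt.le, hT'.1]
    exact eq_neg_of_add_eq_zero_left h1
  have h1 : IsIdx v X Y γ ζ (T + (p - 1) • T') (i + (p - 1) * i) :=
    IsIdx.add C hp hp2 hvp hmp hζ hT.2 (InE0.nsmul C.xy C.hm1 C.hb.le hT'.2 _) hi
      (Index2_isIdx_nsmul C hp hp2 hvp hmp hζ hT'.2 hi' _)
  have e1 : i + (p - 1) * i = p * i := by
    obtain ⟨q, rfl⟩ : ∃ q, p = q + 1 := ⟨p - 1, (Nat.sub_add_cancel hp.one_lt.le).symm⟩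
    rw [Nat.add_sub_cancel]
    ring
  have h2 : IsIdx v X Y γ ζ (T - T') 0 := by
    unfold IsIdx at h1 ⊢
    rw [hneg, ← sub_eq_add_neg, e1, pow_mul, hζ.pow_eq_one, one_pow] at h1
    rwa [pow_zero]
  have h3 : InL v X p (T - T') :=
    ⟨by rw [smul_sub, hT.1, hT'.1, sub_zero], InE0.sub C.xy C.hm1 C.hb.le hT.2 hT'.2⟩
  exact sub_eq_zero.1 (eq_zero_of_isIdx_zero C hp hp2 hvp hmp hζ h3 h2)

/-- the map `T ↦ index` is injective into `Fin p`. -/
theorem card_InL_le : Nat.card {T : G // InL v X p T} ≤ p := by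
  have hex : ∀ T : {T : G // InL v X p T}, ∃ i : Fin p, IsIdx v X Y γ ζ T.1 i := by
    intro T
    obtain ⟨i, hi, h⟩ := exists_isIdx C hp hp2 hvp hmp hζ T.2
    exact ⟨⟨i, hi⟩, h⟩
  choose f hf using hex
  have hinj : Function.Injective f := by
    intro T T' h
    apply Subtype.ext
    have h' := hf T'
    rw [← h] at h'
    exact eq_of_isIdx C hp hp2 hvp hmp hζ T.2 T'.2 (hf T) h'
  have := Nat.card_le_card_of_injective f hinj
  rwa [Nat.card_fin] at this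

/-- `E₀[p] ⊂ E₁`. -/
theorem InL.inE1 {T : G} (hT : InL v X p T) : InE1 v X T := by
  by_cases hT0 : T = 0
  · exact Or.inl hT0
  · right
    have h1 := depth C hp hp2 hvp hmp hζ hT hT0
    have h2 : v (ζ - 1) ^ 2 < 1 :=
      pow_lt_one₀ zero_le (val_p_lt_val_zeta_sub_one v hp hζ hp2 hvp).2 two_ne_zero
    by_contra hcon
    rw [not_lt] at hcon
    have h3 : v (X T) * v (ζ - 1) ^ 2 < 1 :=
      lt_of_le_of_lt (mul_le_of_le_one_left' hcon) h2
    rw [h1] at h3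
    exact lt_irrefl _ h3

/-- GALOIS.  `s(σT) = σ(s(T))` because `σγ = γ`; `v(σ(s) - ζ^(c i)) = v(σ(s - ζ^i)) = v(s-ζ^i)`;
`c • T` has index `c i` by `IsIdx.add` (induction); `eq_of_isIdx`. -/
theorem sigma_eq_nsmul {σG : G →+ G} {σK : K →+* K} (hσ0 : ∀ P, P ≠ 0 → σG P ≠ 0)
    (hσX : ∀ P, X (σG P) = σK (X P)) (hσY : ∀ P, Y (σG P) = σK (Y P))
    (hσv : ∀ x, v (σK x) = v x) (hσγ : σK γ = γ) {c : ℕ} (hσζ : σK ζ = ζ ^ c)
    {T : G} (hT : InL v X p T) : σG T = c • T := by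
  have h1 : InL v X p (σG T) := by
    refine ⟨by rw [← map_nsmul, hT.1, map_zero], ?_⟩
    rcases hT.2 with h | h
    · left; rw [h, map_zero]
    · right; rw [hσX, hσv]; exact h
  have h2 : InL v X p (c • T) :=
    ⟨by rw [smul_comm, hT.1, smul_zero], InE0.nsmul C.xy C.hm1 C.hb.le hT.2 c⟩
  obtain ⟨i, -, hi⟩ := exists_isIdx C hp hp2 hvp hmp hζ hT
  have hs : sF X Y γ (σG T) = σK (sF X Y γ T) := by
    by_cases hT0 : T = 0
    · rw [hT0, map_zero, sF_zero, map_one]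
    · unfold sF
      rw [if_neg hT0, if_neg (hσ0 T hT0), hσX, hσY, map_div₀, map_sub, map_add, map_mul, hσγ]
  have h3 : IsIdx v X Y γ ζ (σG T) (c * i) := by
    unfold IsIdx at hi ⊢
    have e : sF X Y γ (σG T) - ζ ^ (c * i) = σK (sF X Y γ T - ζ ^ i) := by
      rw [hs, map_sub, map_pow, hσζ, ← pow_mul]
    rw [e, hσv]
    exact hi
  exact eq_of_isIdx C hp hp2 hvp hmp hζ h1 h2 h3
    (Index2_isIdx_nsmul C hp hp2 hvp hmp hζ hT.2 hi c)

end Fermat.Agent.S44.ELocal
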