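import Fermat.Agent.S44.ELocal.Defs

/-!
# S44 / E-LOCAL, leaf SF-A : the function `s`, basic properties
-/

set_option autoImplicit false

namespace Fermat.Agent.S44.ELocal

open Fermat.Agent.S05 Fermat.Agent.S13

variable {G : Type*} [AddCommGroup G] {K : Type*} [Field K]
  {Γ₀ : Type*} [LinearOrderedCommGroupWithZero Γ₀]
  {v : Valuation K Γ₀} {X Y Z : G → K} {m b₂ γ : K}

/-- pure algebra (`linear_combination`): with `e₁,e₂,e₃` the elementary symmetric functions,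
`∏ ((μ-γ)xᵢ + ν) = (μ-γ)³e₃ + (μ-γ)²ν e₂ + (μ-γ)ν²e₁ + ν³`. -/
theorem line_identity {x₁ x₂ x₃ μ ν : K} (hγ : γ ^ 2 = b₂)
    (h1 : 4 * (x₁ + x₂ + x₃) = μ ^ 2 - b₂)
    (h2 : 4 * (x₁ * x₂ + x₁ * x₃ + x₂ * x₃) = 4 * m - 2 * μ * ν)
    (h3 : 4 * (x₁ * x₂ * x₃) = ν ^ 2) :
    ((μ - γ) * x₁ + ν) * ((μ - γ) * x₂ + ν) * ((μ - γ) * x₃ + ν) =
      ν * (ν ^ 2 + m * (μ - γ) ^ 2) := by
  by_cases h4 : (4 : K) = 0
  · have h2 : (2 : K) = 0 := by
      have h22 : (2 : K) * 2 = 0 := by rw [← h4]; norm_num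
      exact mul_self_eq_zero.mp h22
    have hν : ν = 0 := by
      rw [h4, zero_mul] at h3
      exact pow_eq_zero_iff (two_ne_zero) |>.mp h3.symm
    have hμ : μ - γ = 0 := by
      rw [h4, zero_mul] at h1
      have h5 : (μ - γ) ^ 2 = 0 := by linear_combination (-1 : K) * h1 + hγ + (b₂ - μ * γ) * h2
      exact pow_eq_zero_iff (two_ne_zero) |>.mp h5
    rw [hμ, hν]
    ring
  · apply mul_left_cancel₀ h4
    linear_combination (μ - γ) ^ 3 * h3 + (μ - γ) ^ 2 * ν * h2 + (μ - γ) * ν ^ 2 * h1 +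
      (μ - γ) * ν ^ 2 * hγ

theorem sF_zero : sF X Y γ (0 : G) = 1 := by simp [sF]

/-- `s(-P) = s(P)⁻¹` (`X_neg`, `Y_neg`, `inv_div`, `neg_div_neg_eq`). -/
theorem sF_neg (C : Ctx v X Y Z m b₂ γ) (P : G) : sF X Y γ (-P) = (sF X Y γ P)⁻¹ := by
  by_cases hP : P = 0
  · subst hP
    simp [sF]
  · have hP' : -P ≠ 0 := neg_ne_zero.mpr hP
    rw [sF, sF, if_neg hP, if_neg hP', C.xy.X_neg, C.xy.Y_neg, inv_div]
    have e1 : -Y P - γ * X P = -(Y P + γ * X P) := by ring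
    have e2 : -Y P + γ * X P = -(Y P - γ * X P) := by ring
    rw [e1, e2, neg_div_neg_eq]

/-- For `P ∈ E₀`, `P ≠ 0`: `(Y-γX)(Y+γX) = 4X(X²+m)`.  If `v X > 1` then `v(Y)² = v(X)³ > v(γX)²`,
so `v(Y ± γX) = v(Y)`; if `v X = 1` both factors are integral with product a unit.
`1 - s = 2γX/(Y+γX)`. -/
theorem sF_val (C : Ctx v X Y Z m b₂ γ) {P : G} (hP : P ≠ 0) (hx : 1 ≤ v (X P)) :
    v (sF X Y γ P) = 1 ∧ v (1 - sF X Y γ P) ^ 2 * v (X P) = 1 := by
  have hY := C.xy.Y_sq P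
  have hs : sF X Y γ P = (Y P - γ * X P) / (Y P + γ * X P) := by rw [sF, if_neg hP]
  rw [hs]
  generalize X P = x at *
  generalize Y P = y at *
  have hγ1 : v γ = 1 := by
    have h1 : v γ ^ 2 = 1 := by rw [← map_pow, C.hγ, C.hb]
    exact (pow_eq_one_iff_of_nonneg zero_le two_ne_zero).mp h1
  have h4 : v (4 : K) = 1 := v_four C.h2
  have hx0 : v x ≠ 0 := (lt_of_lt_of_le zero_lt_one hx).ne'
  have hxm : v (x ^ 2 + m) = v x ^ 2 := by
    rw [← map_pow]
    apply Valuation.map_add_eq_of_lt_left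
    rw [map_pow]
    exact lt_of_lt_of_le C.hm1 (one_le_pow₀ hx)
  have hAB : v (y - γ * x) * v (y + γ * x) = v x ^ 3 := by
    rw [← map_mul]
    have e : (y - γ * x) * (y + γ * x) = 4 * x * (x ^ 2 + m) := by
      linear_combination hY - x ^ 2 * C.hγ
    rw [e, map_mul, map_mul, h4, hxm, one_mul, ← pow_succ']
  have hBA : v ((y + γ * x) - (y - γ * x)) = v x := by
    have e : (y + γ * x) - (y - γ * x) = 2 * γ * x := by ring
    rw [e, map_mul, map_mul, C.h2, hγ1, one_mul, one_mul]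
  have h23 : v x ^ 2 ≤ v x ^ 3 := pow_le_pow_right₀ hx (by norm_num)
  have hxpos : 0 < v x := zero_lt_iff.mpr hx0
  have heq : v (y - γ * x) = v (y + γ * x) := by
    by_contra hne
    rcases lt_or_gt_of_ne hne with hlt | hlt
    · have h1 : v ((y + γ * x) - (y - γ * x)) = v (y + γ * x) :=
        Valuation.map_sub_eq_of_lt_left v hlt
      rw [hBA] at h1
      rw [← h1] at hlt hAB
      have h5 : v (y - γ * x) * v x < v x * v x := mul_lt_mul_of_pos_right hlt hxpos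
      rw [hAB, ← sq] at h5
      exact absurd h23 (not_le.mpr h5)
    · have h1 : v ((y + γ * x) - (y - γ * x)) = v (y - γ * x) :=
        Valuation.map_sub_eq_of_lt_right v hlt
      rw [hBA] at h1
      rw [← h1] at hlt hAB
      have h5 : v x * v (y + γ * x) < v x * v x := mul_lt_mul_of_pos_left hlt hxpos
      rw [hAB, ← sq] at h5
      exact absurd h23 (not_le.mpr h5)
  have hB2 : v (y + γ * x) ^ 2 = v x ^ 3 := by rw [← hAB, heq, sq]
  have hB0 : v (y + γ * x) ≠ 0 := by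
    intro h0
    rw [h0] at hB2
    exact pow_ne_zero 3 hx0 (by rw [← hB2]; simp)
  have hB0' : y + γ * x ≠ 0 := (Valuation.ne_zero_iff v).mp hB0
  refine ⟨by rw [map_div₀, heq, div_self hB0], ?_⟩
  have e : 1 - (y - γ * x) / (y + γ * x) = ((y + γ * x) - (y - γ * x)) / (y + γ * x) := by
    field_simp
  rw [e, map_div₀, hBA, div_pow, hB2, div_mul_eq_mul_div, ← pow_succ]
  exact div_self (pow_ne_zero 3 hx0)

end Fermat.Agent.S44.ELocal
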