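import Fermat.Agent.S44.ELocal.SFun

/-!
# S44 / E-LOCAL, leaf SF-B : `s` is multiplicative on `E₀` up to `1 + O(m)`
-/

set_option autoImplicit false

namespace Fermat.Agent.S44.ELocal

open Fermat.Agent.S05 Fermat.Agent.S13

variable {G : Type*} [AddCommGroup G] {K : Type*} [Field K]
  {Γ₀ : Type*} [LinearOrderedCommGroupWithZero Γ₀]
  {v : Valuation K Γ₀} {X Y Z : G → K} {m b₂ γ : K}

/-- the valuation estimates of `sF_add`. -/
theorem SFun2_key {x₁ x₂ x₃ μ ν : K} (h2 : v (2 : K) = 1) (hm1 : v m < 1) (hb : v b₂ = 1)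
    (hγ : γ ^ 2 = b₂) (hx1 : 1 ≤ v x₁) (hx2 : 1 ≤ v x₂) (hx3 : 1 ≤ v x₃)
    (h1 : 4 * (x₁ + x₂ + x₃) = μ ^ 2 - b₂) (h3 : 4 * (x₁ * x₂ * x₃) = ν ^ 2) :
    ν ≠ 0 ∧ ν ^ 2 + m * (μ - γ) ^ 2 ≠ 0 ∧ ν ^ 2 + m * (μ + γ) ^ 2 ≠ 0 ∧
      v ((ν ^ 2 + m * (μ + γ) ^ 2) / (ν ^ 2 + m * (μ - γ) ^ 2) - 1) ≤ v m := by
  have h4 : v (4 : K) = 1 := by
    have : (4 : K) = 2 * 2 := by norm_num
    rw [this, map_mul, h2, one_mul]
  set W := v x₁ * v x₂ * v x₃ with hW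
  have hW1 : 1 ≤ W := one_le_mul (one_le_mul hx1 hx2) hx3
  have hW0 : W ≠ 0 := (lt_of_lt_of_le zero_lt_one hW1).ne'
  have hνW : v (ν ^ 2) = W := by rw [← h3, map_mul, h4, one_mul, map_mul, map_mul]
  have ha : v x₁ ≤ W := by
    rw [hW, mul_assoc]
    exact le_mul_of_one_le_right' (one_le_mul hx2 hx3)
  have hb' : v x₂ ≤ W := by
    rw [hW, mul_comm (v x₁), mul_assoc]
    exact le_mul_of_one_le_right' (one_le_mul hx1 hx3)
  have hc : v x₃ ≤ W := by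
    rw [hW]
    exact le_mul_of_one_le_left' (one_le_mul hx1 hx2)
  have hγ1 : v γ = 1 := by
    have : v γ ^ 2 = 1 := by rw [← map_pow, hγ, hb]
    exact (pow_eq_one_iff_of_nonneg zero_le two_ne_zero).1 this
  have hμ2 : v μ ^ 2 ≤ W := by
    have e : μ ^ 2 = 4 * (x₁ + x₂ + x₃) + b₂ := by rw [h1]; ring
    rw [← map_pow, e]
    refine v.map_add_le ?_ (by rw [hb]; exact hW1)
    rw [map_mul, h4, one_mul]
    exact v.map_add_le (v.map_add_le ha hb') hc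
  have hμ : v μ ≤ W := by
    rcases le_total (v μ) 1 with h | h
    · exact h.trans hW1
    · refine le_trans ?_ hμ2
      rw [pow_two]
      exact le_mul_of_one_le_right' h
  have hpm : ∀ δ : K, v δ = 1 → v (m * (μ + δ) ^ 2) < W := by
    intro δ hδ
    have h5 : v (μ + δ) ^ 2 ≤ W := by
      rcases le_total (v μ) 1 with h | h
      · have : v (μ + δ) ≤ 1 := v.map_add_le h hδ.le
        exact (pow_le_one₀ zero_le this).trans hW1
      · have : v (μ + δ) ≤ v μ := v.map_add_le le_rfl (hδ.le.trans h)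
        exact (pow_le_pow_left₀ zero_le this 2).trans hμ2
    rw [map_mul, map_pow]
    calc v m * v (μ + δ) ^ 2 ≤ v m * W := by gcongr
      _ < 1 * W := by
          exact mul_lt_mul_of_pos_right hm1 (zero_lt_iff.mpr hW0)
      _ = W := one_mul _
  have hD : ∀ δ : K, v δ = 1 → v (ν ^ 2 + m * (μ + δ) ^ 2) = W := by
    intro δ hδ
    rw [Valuation.map_add_eq_of_lt_left _ (by rw [hνW]; exact hpm δ hδ), hνW]
  have hDm : v (ν ^ 2 + m * (μ - γ) ^ 2) = W := by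
    have := hD (-γ) (by rw [Valuation.map_neg, hγ1])
    rwa [← sub_eq_add_neg] at this
  have hDp : v (ν ^ 2 + m * (μ + γ) ^ 2) = W := hD γ hγ1
  have hDm0 : ν ^ 2 + m * (μ - γ) ^ 2 ≠ 0 := by
    intro h0
    rw [h0, map_zero] at hDm
    exact hW0 hDm.symm
  have hDp0 : ν ^ 2 + m * (μ + γ) ^ 2 ≠ 0 := by
    intro h0
    rw [h0, map_zero] at hDp
    exact hW0 hDp.symm
  refine ⟨?_, hDm0, hDp0, ?_⟩
  · rintro rfl
    rw [zero_pow two_ne_zero, map_zero] at hνW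
    exact hW0 hνW.symm
  · have e : (ν ^ 2 + m * (μ + γ) ^ 2) / (ν ^ 2 + m * (μ - γ) ^ 2) - 1 =
        4 * m * μ * γ / (ν ^ 2 + m * (μ - γ) ^ 2) := by
      field_simp
      ring
    rw [e, map_div₀, hDm, map_mul, map_mul, map_mul, h4, hγ1, one_mul, mul_one,
      div_le_iff₀ (zero_lt_iff.mpr hW0)]
    gcongr

/-- Cases `P = 0`, `Q = 0`, `P + Q = 0` (`u = 1`).  Otherwise take `μ, ν` from `C.ln.line`,
`x₃ = X (P+Q)`; all three `xᵢ` have `v ≥ 1` (`InE0.add`).  By `line_identity` for `γ` and `-γ`,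
`s(P) s(Q) s(P+Q)⁻¹ = (ν²+m(μ-γ)²)/(ν²+m(μ+γ)²)`, so `u = (ν²+m(μ+γ)²)/(ν²+m(μ-γ)²)`,
`u - 1 = 4mμγ/(ν²+m(μ-γ)²)`.  Estimates: `Π := v(ν²) = ∏ v(xᵢ) ≥ max v(xᵢ) ≥ 1`,
`v(μ)² = v(b₂+4e₁) ≤ max v(xᵢ) ≤ Π`, hence `v(μ) ≤ Π`, `v(m(μ±γ)²) ≤ v(m) Π < Π`,
`v(denominator) = Π`, `v(4mμγ) ≤ v(m) Π`. -/
theorem sF_add (C : Ctx v X Y Z m b₂ γ) {P Q : G} (hP : InE0 v X P) (hQ : InE0 v X Q) :
    ∃ u : K, v (u - 1) ≤ v m ∧ sF X Y γ (P + Q) = sF X Y γ P * sF X Y γ Q * u := by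
  by_cases hP0 : P = 0
  · subst hP0
    exact ⟨1, by simp, by rw [zero_add, sF_zero]; ring⟩
  by_cases hQ0 : Q = 0
  · subst hQ0
    exact ⟨1, by simp, by rw [add_zero, sF_zero]; ring⟩
  have hx1 : 1 ≤ v (X P) := hP.resolve_left hP0
  have hx2 : 1 ≤ v (X Q) := hQ.resolve_left hQ0
  by_cases hPQ : P + Q = 0
  · have hQ' : Q = -P := (neg_eq_of_add_eq_zero_right hPQ).symm
    have hs : sF X Y γ P ≠ 0 := by
      intro h0
      have := (sF_val C hP0 hx1).1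
      rw [h0, map_zero] at this
      exact zero_ne_one this
    refine ⟨1, by simp, ?_⟩
    rw [hPQ, sF_zero, hQ', sF_neg C, mul_inv_cancel₀ hs, one_mul]
  have hx3 : 1 ≤ v (X (P + Q)) := (InE0.add C.xy C.hm1 C.hb.le hP hQ).resolve_left hPQ
  obtain ⟨μ, ν, hY1, hY2, hY3, h1, h2, h3⟩ := C.ln.line hP0 hQ0 hPQ
  obtain ⟨hν, hDm, hDp, hu⟩ := SFun2_key C.h2 C.hm1 C.hb C.hγ hx1 hx2 hx3 h1 h3
  have ia := line_identity C.hγ h1 h2 h3
  have ic := line_identity (γ := -γ) (by rw [neg_sq]; exact C.hγ) h1 h2 h3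
  rw [sub_neg_eq_add] at ic
  refine ⟨_, hu, ?_⟩
  have hY3' : Y (P + Q) = -(μ * X (P + Q) + ν) := by rw [← hY3, neg_neg]
  rw [sF, if_neg hPQ, sF, if_neg hP0, sF, if_neg hQ0, hY1, hY2, hY3']
  generalize X P = x₁ at *
  generalize X Q = x₂ at *
  generalize X (P + Q) = x₃ at *
  have hpa : ((μ - γ) * x₁ + ν) * ((μ - γ) * x₂ + ν) * ((μ - γ) * x₃ + ν) ≠ 0 := by
    rw [ia]; exact mul_ne_zero hν hDm
  have hpc : ((μ + γ) * x₁ + ν) * ((μ + γ) * x₂ + ν) * ((μ + γ) * x₃ + ν) ≠ 0 := by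
    rw [ic]; exact mul_ne_zero hν hDp
  have ha3 : (μ - γ) * x₃ + ν ≠ 0 := right_ne_zero_of_mul hpa
  have hc1 : (μ + γ) * x₁ + ν ≠ 0 := left_ne_zero_of_mul (left_ne_zero_of_mul hpc)
  have hc2 : (μ + γ) * x₂ + ν ≠ 0 := right_ne_zero_of_mul (left_ne_zero_of_mul hpc)
  have e1 : μ * x₁ + ν - γ * x₁ = (μ - γ) * x₁ + ν := by ring
  have e2 : μ * x₁ + ν + γ * x₁ = (μ + γ) * x₁ + ν := by ring
  have e3 : μ * x₂ + ν - γ * x₂ = (μ - γ) * x₂ + ν := by ring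
  have e4 : μ * x₂ + ν + γ * x₂ = (μ + γ) * x₂ + ν := by ring
  have e5 : -(μ * x₃ + ν) - γ * x₃ = -((μ + γ) * x₃ + ν) := by ring
  have e6 : -(μ * x₃ + ν) + γ * x₃ = -((μ - γ) * x₃ + ν) := by ring
  rw [e1, e2, e3, e4, e5, e6, neg_div_neg_eq]
  generalize (μ - γ) * x₁ + ν = a₁ at *
  generalize (μ - γ) * x₂ + ν = a₂ at *
  generalize (μ - γ) * x₃ + ν = a₃ at *
  generalize (μ + γ) * x₁ + ν = c₁ at *
  generalize (μ + γ) * x₂ + ν = c₂ at *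
  generalize (μ + γ) * x₃ + ν = c₃ at *
  generalize ν ^ 2 + m * (μ - γ) ^ 2 = Dm at *
  generalize ν ^ 2 + m * (μ + γ) ^ 2 = Dp at *
  field_simp
  linear_combination Dm * ic - Dp * ia

/-- `{u | v(u-1) ≤ v m}` is stable under products. -/
theorem SFun2_mul {u u' : K} (hm1 : v m < 1) (hu : v (u - 1) ≤ v m) (hu' : v (u' - 1) ≤ v m) :
    v (u * u' - 1) ≤ v m := by
  have e : u * u' - 1 = (u - 1) * (u' - 1) + (u - 1) + (u' - 1) := by ring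
  rw [e]
  refine v.map_add_le (v.map_add_le ?_ hu) hu'
  rw [map_mul]
  calc v (u - 1) * v (u' - 1) ≤ v m * 1 := mul_le_mul' hu (hu'.trans hm1.le)
    _ = v m := mul_one _

/-- induction on `k` with `sF_add`, `InE0.nsmul`; `{u | v(u-1) ≤ v m}` is stable under products
(`u u' - 1 = (u-1)(u'-1) + (u-1) + (u'-1)`). -/
theorem sF_nsmul (C : Ctx v X Y Z m b₂ γ) {T : G} (hT : InE0 v X T) (k : ℕ) :
    ∃ u : K, v (u - 1) ≤ v m ∧ sF X Y γ (k • T) = sF X Y γ T ^ k * u := by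
  induction k with
  | zero => exact ⟨1, by simp, by rw [zero_smul, sF_zero]; simp⟩
  | succ k ih =>
    obtain ⟨u, hu, e⟩ := ih
    obtain ⟨u', hu', e'⟩ := sF_add C (InE0.nsmul C.xy C.hm1 C.hb.le hT k) hT
    refine ⟨u * u', SFun2_mul C.hm1 hu hu', ?_⟩
    rw [succ_nsmul, e', e]
    ring

/-- `k = p` in `sF_nsmul`: `1 = s(T)^p u`, `v(u) = 1`, `s^p - 1 = (1-u)/u`. -/
theorem sF_pow_sub_one (C : Ctx v X Y Z m b₂ γ) {p : ℕ} {T : G} (hT : InL v X p T) :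
    v (sF X Y γ T ^ p - 1) ≤ v m := by
  obtain ⟨u, hu, e⟩ := sF_nsmul C hT.2 p
  rw [hT.1, sF_zero] at e
  have hu1 : v u = 1 := by
    have e1 : u = (u - 1) + 1 := by ring
    rw [e1, Valuation.map_add_eq_of_lt_right _ (by rw [map_one]; exact lt_of_le_of_lt hu C.hm1),
      map_one]
  have hs1 : v (sF X Y γ T ^ p) = 1 := by
    have := congrArg v e
    rw [map_one, map_mul, hu1, mul_one] at this
    exact this.symm
  have e2 : sF X Y γ T ^ p - 1 = sF X Y γ T ^ p * (1 - u) := by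
    rw [mul_sub, mul_one, ← e]
  rw [e2, map_mul, hs1, one_mul, Valuation.map_sub_swap]
  exact hu

end Fermat.Agent.S44.ELocal
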